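/-
FL-K (flatness of the Kummer extension) on the FF machine, seat FormalZ (helper97):
the FORMAL side on ONE ZONE, with a VARIABLE ORIGIN.

`Y` is a finite Galois set (a zone of `W × W`, e.g. `{(x, y) | carry x y = c}`); on `Y` three
families of echelon matrices `Γx τ y`, `Γy τ y`, `Γz τ y` are given (for `W × W`: the matrices of
`x`, of `y` and of `x + y`), and ORIGIN matrices `E₁ τ`, `X τ` (for the carry `c`: the matrices of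
`L(T - D_o^τ)` and `L(2T - D_o^τ)`, `o` the origin of the zone).  If the Khuri-Makdisi step with
these data is good at every point of `Y` over `ℚ̄` and over the residue field of ONE place `A₀`
over `p`, and computes `Γz`, then every entry of `Γz τ` is a POLYNOMIAL with coefficients in
`Bint p` in the entries of the `Γx τ'`, `Γy τ'`:

  `exists_poly_of_kmZone`.

This is `FF.isFlat_of_kmGeom` (Lib/FF/Formal.lean) with `(W × W, fst, snd, +)` replaced by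
`(Y, Γx, Γy, Γz)` and `E₁ = Γ τ 0` replaced by a variable origin.
-/
import Mathlib
import Fermat.Agent.Lib.FF.Formal

set_option autoImplicit false

noncomputable section

namespace Fermat.Agent.FFKum

open GaloisRep Fermat.Agent.KMRing Fermat.Agent.FlatMod Fermat.Agent.FF
open scoped Pointwise

local notation "Kb" => AlgebraicClosure ℚ
local notation "GK" => (AlgebraicClosure ℚ ≃ₐ[ℚ] AlgebraicClosure ℚ)
local notation "Bint" p => integralClosure (ratLocalizedAt p) Kb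

/-- the Khuri-Makdisi data with origin matrices `E₁` (of `L(T - D_o)`) and `X` (of
`L(2T - D_o)`). -/
def kmDataO {n₁ n₂ n₄ r e₂ : ℕ}
    (m₁ : Fin n₁ → Fin n₁ → Fin n₂ → Kb) (m₂ : Fin n₂ → Fin n₂ → Fin n₄ → Kb)
    (Γx Γy E₁ : Matrix (Fin n₁) (Fin r) Kb) (X : Matrix (Fin n₂) (Fin e₂) Kb) :
    KMData Kb n₁ n₂ n₄ r r r e₂ where
  m₁ := m₁
  m₂ := m₂
  Γx := Γx
  Γy := Γy
  E₁ := E₁
  E₂ := X

/-- **The geometric input on one zone** `Y`. -/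
structure KMZone (p : ℕ) (Y : Type) (permY : GK → Y → Y)
    {n : Type} (Fib : n → Type) (perm : ∀ i, GK → Fib i → Fib i)
    (n₁ n₂ n₄ r e₂ : ℕ) where
  /-- expected dimension of `Y = L(2T - D₃ - D_o)` -/
  ρ : ℕ
  /-- the pivot rows -/
  I₀ : Fin r → Fin n₁
  /-- structure constants `L(T) × L(T) → L(2T)` -/
  m₁ : Fin n₁ → Fin n₁ → Fin n₂ → Kb
  /-- structure constants `L(2T) × L(2T) → L(4T)` -/
  m₂ : Fin n₂ → Fin n₂ → Fin n₄ → Kb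
  /-- echelon matrix of the first summand -/
  Γx : (∀ i, Fib i) → Y → Matrix (Fin n₁) (Fin r) Kb
  /-- echelon matrix of the second summand -/
  Γy : (∀ i, Fib i) → Y → Matrix (Fin n₁) (Fin r) Kb
  /-- echelon matrix of the sum -/
  Γz : (∀ i, Fib i) → Y → Matrix (Fin n₁) (Fin r) Kb
  /-- matrix of `L(T - D_o^τ)`, `o` the origin -/
  E₁ : (∀ i, Fib i) → Matrix (Fin n₁) (Fin r) Kb
  /-- basis matrix of `L(2T - D_o^τ)` -/
  X : (∀ i, Fib i) → Matrix (Fin n₂) (Fin e₂) Kb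
  /-- a left inverse of `X τ` -/
  Lx : (∀ i, Fib i) → Matrix (Fin e₂) (Fin n₂) Kb
  m₁_int : ∀ i j k, IsIntegral (ratLocalizedAt p) (m₁ i j k)
  m₂_int : ∀ i j k, IsIntegral (ratLocalizedAt p) (m₂ i j k)
  m₁_fix : ∀ (σ : GK) i j k, σ (m₁ i j k) = m₁ i j k
  m₂_fix : ∀ (σ : GK) i j k, σ (m₂ i j k) = m₂ i j k
  Γx_int : ∀ τ y i a, IsIntegral (ratLocalizedAt p) (Γx τ y i a)
  Γy_int : ∀ τ y i a, IsIntegral (ratLocalizedAt p) (Γy τ y i a)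
  E₁_int : ∀ τ i a, IsIntegral (ratLocalizedAt p) (E₁ τ i a)
  X_int : ∀ τ i a, IsIntegral (ratLocalizedAt p) (X τ i a)
  Lx_int : ∀ τ a i, IsIntegral (ratLocalizedAt p) (Lx τ a i)
  Lx_mul_X : ∀ τ, Lx τ * X τ = 1
  Γz_ech : ∀ τ y, (Γz τ y).submatrix I₀ id = 1
  Γx_equiv : ∀ τ (σ : GK) y i a, Γx (fun i => perm i σ (τ i)) (permY σ y) i a = σ (Γx τ y i a)
  Γy_equiv : ∀ τ (σ : GK) y i a, Γy (fun i => perm i σ (τ i)) (permY σ y) i a = σ (Γy τ y i a)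
  E₁_equiv : ∀ τ (σ : GK) i a, E₁ (fun i => perm i σ (τ i)) i a = σ (E₁ τ i a)
  X_equiv : ∀ τ (σ : GK) i a, X (fun i => perm i σ (τ i)) i a = σ (X τ i a)
  /-- Khuri-Makdisi over `ℚ̄`, at every point of the zone -/
  good_gen : ∀ τ y, KMGood (kmDataO m₁ m₂ (Γx τ y) (Γy τ y) (E₁ τ) (X τ)) ρ I₀
  /-- the result of the Khuri-Makdisi steps is the column space of `Γz` -/
  sum_gen : ∀ τ y,
    LinearMap.range (Γz τ y).mulVecLin = (kmDataO m₁ m₂ (Γx τ y) (Γy τ y) (E₁ τ) (X τ)).W₃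
  /-- the ONE place -/
  A₀ : ValuationSubring Kb
  hA₀ : A₀.LiesOverPrime p
  /-- Khuri-Makdisi over the residue field of `A₀`, for every integral model of the data -/
  good_cl : ∀ τ y (d : KMData A₀ n₁ n₂ n₄ r r r e₂),
    d.map A₀.subtype = kmDataO m₁ m₂ (Γx τ y) (Γy τ y) (E₁ τ) (X τ) →
      KMGood (d.map (IsLocalRing.residue A₀)) ρ I₀

section Setup

variable {p : ℕ} {Y : Type} {permY : GK → Y → Y}
  {n : Type} {Fib : n → Type} {perm : ∀ i, GK → Fib i → Fib i} {n₁ n₂ n₄ r e₂ : ℕ}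
  (𝒵 : KMZone p Y permY Fib perm n₁ n₂ n₄ r e₂)

/-- the generators of the ring of coordinate functions on the zone. -/
def zGen : ((∀ i, Fib i) × (Fin n₁ × Fin r)) ⊕ ((∀ i, Fib i) × (Fin n₁ × Fin r)) → Y → Kb :=
  fun k y => Sum.elim (fun k => 𝒵.Γx k.1 y k.2.1 k.2.2) (fun k => 𝒵.Γy k.1 y k.2.1 k.2.2) k

theorem zGen_int (k) (y : Y) : IsIntegral (ratLocalizedAt p) (zGen 𝒵 k y) := by
  rcases k with k | k
  · exact 𝒵.Γx_int k.1 y k.2.1 k.2.2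
  · exact 𝒵.Γy_int k.1 y k.2.1 k.2.2

/-- the ring of coordinate functions on the zone. -/
abbrev zRing : Subalgebra (Bint p) (Y → Kb) :=
  (MvPolynomial.aeval (zGen 𝒵) :
    MvPolynomial (((∀ i, Fib i) × (Fin n₁ × Fin r)) ⊕ ((∀ i, Fib i) × (Fin n₁ × Fin r)))
      (Bint p) →ₐ[Bint p] (Y → Kb)).range

/-- a generator as an element of the ring. -/
def zGenR (k : ((∀ i, Fib i) × (Fin n₁ × Fin r)) ⊕ ((∀ i, Fib i) × (Fin n₁ × Fin r))) :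
    zRing 𝒵 :=
  ⟨zGen 𝒵 k, ⟨MvPolynomial.X k, MvPolynomial.aeval_X _ _⟩⟩

/-- a constant as an element of the ring. -/
def zCst (b : Kb) (hb : IsIntegral (ratLocalizedAt p) b) : zRing 𝒵 :=
  algebraMap (Bint p) (zRing 𝒵) ⟨b, hb⟩

theorem coe_zCst (b : Kb) (hb : IsIntegral (ratLocalizedAt p) b) (y : Y) :
    ((zCst 𝒵 b hb : zRing 𝒵) : Y → Kb) y = b := rfl

theorem coe_zGenR (k) (y : Y) : ((zGenR 𝒵 k : zRing 𝒵) : Y → Kb) y = zGen 𝒵 k y :=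
  rfl

/-- the Khuri-Makdisi data over the ring of coordinate functions. -/
def zDataR (τ : ∀ i, Fib i) : KMData (zRing 𝒵) n₁ n₂ n₄ r r r e₂ where
  m₁ := fun i j k => zCst 𝒵 (𝒵.m₁ i j k) (𝒵.m₁_int i j k)
  m₂ := fun i j k => zCst 𝒵 (𝒵.m₂ i j k) (𝒵.m₂_int i j k)
  Γx := Matrix.of fun i a => zGenR 𝒵 (Sum.inl (τ, (i, a)))
  Γy := Matrix.of fun i a => zGenR 𝒵 (Sum.inr (τ, (i, a)))
  E₁ := Matrix.of fun i a => zCst 𝒵 (𝒵.E₁ τ i a) (𝒵.E₁_int τ i a)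
  E₂ := Matrix.of fun i a => zCst 𝒵 (𝒵.X τ i a) (𝒵.X_int τ i a)

/-- at a generic point the data are the data of `KMZone`. -/
theorem zDataR_map_eval (τ : ∀ i, Fib i) (y : Y) :
    (zDataR 𝒵 τ).map (PtsMax.evalHom (zRing 𝒵) y) =
      kmDataO 𝒵.m₁ 𝒵.m₂ (𝒵.Γx τ y) (𝒵.Γy τ y) (𝒵.E₁ τ) (𝒵.X τ) := by
  apply kmData_ext <;> intros <;> rfl

/-- `E₂` has a left inverse over the ring. -/
theorem zDataR_leftInv (τ : ∀ i, Fib i) :
    ∃ L : Matrix (Fin e₂) (Fin n₂) (zRing 𝒵), L * (zDataR 𝒵 τ).E₂ = 1 := by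
  refine ⟨Matrix.of fun a i => zCst 𝒵 (𝒵.Lx τ a i) (𝒵.Lx_int τ a i), ?_⟩
  ext a b y
  have h := congrFun (congrFun (𝒵.Lx_mul_X τ) a) b
  rw [Matrix.mul_apply] at h
  rw [Matrix.mul_apply]
  have hsum : ((∑ j, Matrix.of (fun a i => zCst 𝒵 (𝒵.Lx τ a i) (𝒵.Lx_int τ a i)) a j *
      (zDataR 𝒵 τ).E₂ j b : zRing 𝒵) : Y → Kb) y = ∑ j, 𝒵.Lx τ a j * 𝒵.X τ j b := by
    rw [AddSubmonoidClass.coe_finsetSum, Finset.sum_apply]
    rfl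
  rw [hsum, h]
  by_cases hab : a = b
  · subst hab
    simp
  · simp [hab]

end Setup

section Closed

variable {p : ℕ} [Fact p.Prime] {Y : Type} {permY : GK → Y → Y}
  {n : Type} {Fib : n → Type} {perm : ∀ i, GK → Fib i → Fib i} {n₁ n₂ n₄ r e₂ : ℕ}
  (𝒵 : KMZone p Y permY Fib perm n₁ n₂ n₄ r e₂)

/-- the integral model over `A₀` of the data at `(τ', y')`. -/
def zDataA₀ (τ' : ∀ i, Fib i) (y' : Y) : KMData 𝒵.A₀ n₁ n₂ n₄ r r r e₂ where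
  m₁ := fun i j k =>
    ⟨𝒵.m₁ i j k, mem_of_isIntegral_of_liesOverPrime 𝒵.A₀ 𝒵.hA₀ (𝒵.m₁_int i j k)⟩
  m₂ := fun i j k =>
    ⟨𝒵.m₂ i j k, mem_of_isIntegral_of_liesOverPrime 𝒵.A₀ 𝒵.hA₀ (𝒵.m₂_int i j k)⟩
  Γx := Matrix.of fun i a =>
    ⟨𝒵.Γx τ' y' i a, mem_of_isIntegral_of_liesOverPrime 𝒵.A₀ 𝒵.hA₀ (𝒵.Γx_int τ' y' i a)⟩
  Γy := Matrix.of fun i a =>
    ⟨𝒵.Γy τ' y' i a, mem_of_isIntegral_of_liesOverPrime 𝒵.A₀ 𝒵.hA₀ (𝒵.Γy_int τ' y' i a)⟩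
  E₁ := Matrix.of fun i a =>
    ⟨𝒵.E₁ τ' i a, mem_of_isIntegral_of_liesOverPrime 𝒵.A₀ 𝒵.hA₀ (𝒵.E₁_int τ' i a)⟩
  E₂ := Matrix.of fun i a =>
    ⟨𝒵.X τ' i a, mem_of_isIntegral_of_liesOverPrime 𝒵.A₀ 𝒵.hA₀ (𝒵.X_int τ' i a)⟩

theorem zDataA₀_map_subtype (τ' : ∀ i, Fib i) (y' : Y) :
    (zDataA₀ 𝒵 τ' y').map 𝒵.A₀.subtype =
      kmDataO 𝒵.m₁ 𝒵.m₂ (𝒵.Γx τ' y') (𝒵.Γy τ' y') (𝒵.E₁ τ') (𝒵.X τ') := by
  apply kmData_ext <;> intros <;> rfl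

variable (hpermY_one : ∀ y, permY 1 y = y)
  (hpermY_mul : ∀ (σ τ : GK) y, permY (σ * τ) y = permY σ (permY τ y))
  (hperm_one : ∀ i P, perm i 1 P = P)
  (hperm_mul : ∀ i (σ τ : GK) P, perm i (σ * τ) P = perm i σ (perm i τ P))

include hpermY_one hpermY_mul hperm_one hperm_mul in
/-- **one-place transport**: `KMGood` at the closed point `(y, σ • A₀)`. -/
theorem zGood_closed (τ : ∀ i, Fib i) (y : Y) (σ : GK)
    (hA : (σ • 𝒵.A₀).LiesOverPrime p) :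
    KMGood ((zDataR 𝒵 τ).map (redPoint (zGen 𝒵) (zGen_int 𝒵) (σ • 𝒵.A₀) hA y))
      𝒵.ρ 𝒵.I₀ := by
  set τ' : ∀ i, Fib i := fun i => perm i σ⁻¹ (τ i) with hτ'
  have hτ : (fun i => perm i σ (τ' i)) = τ := by
    funext i
    rw [hτ', ← hperm_mul, mul_inv_cancel, hperm_one]
  have hyσ : permY σ (permY σ⁻¹ y) = y := by
    rw [← hpermY_mul, mul_inv_cancel, hpermY_one]
  have hΓx : ∀ i a, 𝒵.Γx τ y i a = σ (𝒵.Γx τ' (permY σ⁻¹ y) i a) := by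
    intro i a
    rw [← 𝒵.Γx_equiv τ' σ (permY σ⁻¹ y) i a, hτ, hyσ]
  have hΓy : ∀ i a, 𝒵.Γy τ y i a = σ (𝒵.Γy τ' (permY σ⁻¹ y) i a) := by
    intro i a
    rw [← 𝒵.Γy_equiv τ' σ (permY σ⁻¹ y) i a, hτ, hyσ]
  have hE : ∀ i a, 𝒵.E₁ τ i a = σ (𝒵.E₁ τ' i a) := by
    intro i a
    rw [← 𝒵.E₁_equiv τ' σ i a, hτ]
  have hX : ∀ i a, 𝒵.X τ i a = σ (𝒵.X τ' i a) := by
    intro i a
    rw [← 𝒵.X_equiv τ' σ i a, hτ]
  have hgood := 𝒵.good_cl τ' (permY σ⁻¹ y)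
    (zDataA₀ 𝒵 τ' (permY σ⁻¹ y)) (zDataA₀_map_subtype 𝒵 _ _)
  have h2 := hgood.map_ringEquiv (residueEquivSMul σ 𝒵.A₀)
  have heq : (zDataR 𝒵 τ).map (redPoint (zGen 𝒵) (zGen_int 𝒵) (σ • 𝒵.A₀) hA y) =
      ((zDataA₀ 𝒵 τ' (permY σ⁻¹ y)).map (IsLocalRing.residue 𝒵.A₀)).map
        (residueEquivSMul σ 𝒵.A₀ : IsLocalRing.ResidueField 𝒵.A₀ →+* _) := by
    apply kmData_ext
    · intro i j k
      exact residue_eq_residueEquivSMul σ 𝒵.A₀ _ _ _ _ (𝒵.m₁_fix σ i j k).symm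
    · intro i j k
      exact residue_eq_residueEquivSMul σ 𝒵.A₀ _ _ _ _ (𝒵.m₂_fix σ i j k).symm
    · intro i a
      exact residue_eq_residueEquivSMul σ 𝒵.A₀ _ _ _ _ (hΓx i a)
    · intro i a
      exact residue_eq_residueEquivSMul σ 𝒵.A₀ _ _ _ _ (hΓy i a)
    · intro i a
      exact residue_eq_residueEquivSMul σ 𝒵.A₀ _ _ _ _ (hE i a)
    · intro i a
      exact residue_eq_residueEquivSMul σ 𝒵.A₀ _ _ _ _ (hX i a)
  rw [heq]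
  exact h2

end Closed

/-- **Formal side on one zone**: every entry of `Γz τ` is a polynomial over `Bint p` in the
entries of the `Γx τ'`, `Γy τ'`. -/
theorem exists_poly_of_kmZone {p : ℕ} [Fact p.Prime] {Y : Type} [Finite Y]
    (permY : GK → Y → Y) (hpermY_one : ∀ y, permY 1 y = y)
    (hpermY_mul : ∀ (σ τ : GK) y, permY (σ * τ) y = permY σ (permY τ y))
    {n : Type} {Fib : n → Type} (perm : ∀ i, GK → Fib i → Fib i)
    (hperm_one : ∀ i P, perm i 1 P = P)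
    (hperm_mul : ∀ i (σ τ : GK) P, perm i (σ * τ) P = perm i σ (perm i τ P))
    {n₁ n₂ n₄ r e₂ : ℕ} (𝒵 : KMZone p Y permY Fib perm n₁ n₂ n₄ r e₂)
    (τ : ∀ i, Fib i) (i : Fin n₁) (a : Fin r) :
    ∃ P : MvPolynomial
        (((∀ i, Fib i) × (Fin n₁ × Fin r)) ⊕ ((∀ i, Fib i) × (Fin n₁ × Fin r))) (Bint p),
      ∀ y, 𝒵.Γz τ y i a =
        MvPolynomial.aeval
          (Sum.elim (fun k => 𝒵.Γx k.1 y k.2.1 k.2.2) (fun k => 𝒵.Γy k.1 y k.2.1 k.2.2)) P := by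
  classical
  have key : ∃ Γ₃ : Matrix (Fin n₁) (Fin r) (zRing 𝒵), Γ₃.submatrix 𝒵.I₀ id = 1 ∧
      ∀ {K' : Type} [Field K'] (f : zRing 𝒵 →+* K'),
        LinearMap.range (Γ₃.map f).mulVecLin = ((zDataR 𝒵 τ).map f).W₃ := by
    refine KMRing.exists_sum_matrix (zDataR 𝒵 τ) (zDataR_leftInv 𝒵 τ) 𝒵.ρ 𝒵.I₀
      (PtsMax.evalHom (zRing 𝒵)) (PtsMax.eval_eq_zero _) (fun y => ?_) (fun M hM => ?_)
    · rw [zDataR_map_eval]
      exact 𝒵.good_gen τ y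
    · obtain ⟨y, A, hA, hle⟩ := exists_redPoint_of_maximal (zGen 𝒵) (zGen_int 𝒵) M hM
      obtain ⟨σ, rfl⟩ := exists_smul_eq_of_liesOverPrime 𝒵.A₀ A 𝒵.hA₀ hA
      exact ⟨_, inferInstance, _, hle,
        zGood_closed 𝒵 hpermY_one hpermY_mul hperm_one hperm_mul τ y σ hA⟩
  obtain ⟨Γ₃, hΓ₃, hrange⟩ := key
  obtain ⟨P, hP⟩ := (Γ₃ i a).2
  refine ⟨P, fun y => ?_⟩
  have h1 := KMRing.eq_map_of_echelon (zDataR 𝒵 τ) (PtsMax.evalHom (zRing 𝒵) y) hΓ₃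
    (hrange _) (𝒵.Γz_ech τ y)
    (by rw [zDataR_map_eval]; exact (𝒵.sum_gen τ y).le)
  have h2 : 𝒵.Γz τ y i a = ((Γ₃ i a : zRing 𝒵) : Y → Kb) y :=
    congrFun (congrFun h1 i) a
  have h3 : ((Γ₃ i a : zRing 𝒵) : Y → Kb) y =
      MvPolynomial.aeval (fun k => zGen 𝒵 k y) P :=
    (congrFun hP y).symm.trans (aeval_pi_apply (zGen 𝒵) P y)
  have h4 : (fun k => zGen 𝒵 k y) =
      Sum.elim (fun k => 𝒵.Γx k.1 y k.2.1 k.2.2) (fun k => 𝒵.Γy k.1 y k.2.1 k.2.2) := by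
    funext k
    rcases k with k | k <;> rfl
  rw [← h4, ← h3, ← h2]

end Fermat.Agent.FFKum
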