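/-
E' / DESC-FL, seat FL-K (owner helper72), part KUMASM: the GEOMETRIC ASSEMBLY WITH ZONES.

`isFlat_of_geomSet`: `GeomSetup + RatBases + GoodFibresSet ⇒ IsFlatGaloisModule p W act` for a
finite Galois module `W` whose elements are points `pt (idx w)` of `Pic⁰` which do NOT form a
subgroup, but satisfy `pt (idx w) + pt (idx w') = pt (idx (w + w')) + pt (o (m w) (m w'))` for an
additive Galois-invariant map `m : W → Z` (the ZONES are the fibres of `m × m`) and Galois-fixed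
ORIGINS `o z z'`.

Proof = on every zone the affine Khuri-Makdisi step with origin `o z z'` (Lib/FF/Kum/GoodSet.lean)
gives a `KMZone` (Lib/FF/Kum/FormalZ.lean), hence an addition polynomial over `Bint p`; conclude
by the Hopf order criterion with zones (Lib/FlatMod/OrderZones.lean).

(The group case `m = 0`, `o = idx 0` is `FFGeom.isFlat_of_geomSetup` of S19.)
-/
import Mathlib
import Fermat.Agent.Lib.FF.Kum.GoodSet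
import Fermat.Agent.Lib.FF.Kum.FormalZ
import Fermat.Agent.Lib.FlatMod.OrderZones

set_option autoImplicit false
set_option linter.style.haveILetI false

noncomputable section

open AlgebraicCurve GaloisRep Fermat.Agent.RR Fermat.Agent.Deuring Fermat.Agent.FFGoodEll
  Fermat.Agent.FFGal Fermat.Agent.FF Fermat.Agent.KMRing Fermat.Agent.FlatMod Fermat.Agent.FFGeom

namespace Fermat.Agent.FFKum

local notation "Kb" => AlgebraicClosure ℚ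
local notation "GK" => (AlgebraicClosure ℚ ≃ₐ[ℚ] AlgebraicClosure ℚ)

variable {p : ℕ} {F Fk : Type} [Field F] [Algebra Kb F] {A₀ : ValuationSubring Kb} [Field Fk]
  [Algebra (IsLocalRing.ResidueField A₀) Fk]

section Asm

variable (𝒮 : GeomSetup p F Fk A₀) {X : Type} (actX : GK → X → X)
  (pt : X → Pic0 Kb F) (hpt : ∀ (σ : GK) (x : X), pt (actX σ x) = 𝒮.gal σ • pt x)
  {g M₀ n₁ n₂ n₄ r₁ r₂ : ℕ} (hg : g = genusFF Kb F) (hM₀ : 4 * g + 2 ≤ M₀)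
  (hn₁ : n₁ + g = M₀ + 1) (hn₂ : n₂ + g = 2 * M₀ + 1) (hr₁ : r₁ + g = n₁) (hr₂ : r₂ + g = n₂)
  (B : RatBases 𝒮 M₀ n₁ n₂ n₄ r₁ r₂) (𝔉 : GoodFibresSet 𝒮 pt g)

/-- the multiplication table of the rational bases. -/
def mulTableOfGeomSet :
    (echSetOfGeom 𝒮 actX pt hpt hg hM₀ hn₁ hn₂ hr₁ hr₂ B 𝔉).MulTable n₄ where
  b₄ := B.b₄
  hb₄ := B.li₄
  m₁ := B.m₁
  m₂ := B.m₂
  hm₁ := B.hm₁
  hm₂ := B.hm₂

/-- goodness of the reductions of the divisors `D_x^τ`. -/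
theorem isGoodDiv_red_D_ofGeomSet (τ : ∀ i : Fin g, ↥(𝔉.Fib i)) (x : X) :
    IsGoodDiv (𝒮.r (echSetOfGeom 𝒮 actX pt hpt hg hM₀ hn₁ hn₂ hr₁ hr₂ B 𝔉).P)
      (redDiv 𝒮.r ((echSetOfGeom 𝒮 actX pt hpt hg hM₀ hn₁ hn₂ hr₁ hr₂ B 𝔉).D τ x)) := by
  refine EchSet.isGoodDiv_red_D _ 𝒮.r _ τ x fun Y hY hYx => ?_
  exact 𝔉.good (fun i => ((τ i : ↥(𝔉.Fib i)) : Place Kb F)) (fun i => (τ i).2) x Y hY hYx

theorem rho_eq_set :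
    ((2 * M₀ + 1 - 3 * g : ℕ) : ℤ) =
      2 * (echSetOfGeom 𝒮 actX pt hpt hg hM₀ hn₁ hn₂ hr₁ hr₂ B 𝔉).T₀ + 1 -
        3 * (genusFF Kb F : ℤ) := by
  show ((2 * M₀ + 1 - 3 * g : ℕ) : ℤ) = 2 * (M₀ : ℤ) + 1 - 3 * (genusFF Kb F : ℤ)
  rw [← hg]
  omega

/-- `4 g ≤ T₀`. -/
theorem echSetOfGeom_four_le :
    4 * (genusFF Kb F : ℤ) ≤ (echSetOfGeom 𝒮 actX pt hpt hg hM₀ hn₁ hn₂ hr₁ hr₂ B 𝔉).T₀ := by
  show 4 * (genusFF Kb F : ℤ) ≤ (M₀ : ℤ)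
  rw [← hg]
  omega

/-- `3 g ≤ T₀`. -/
theorem echSetOfGeom_three_le :
    3 * (genusFF Kb F : ℤ) ≤ (echSetOfGeom 𝒮 actX pt hpt hg hM₀ hn₁ hn₂ hr₁ hr₂ B 𝔉).T₀ := by
  show 3 * (genusFF Kb F : ℤ) ≤ (M₀ : ℤ)
  rw [← hg]
  omega

/-- `3 g ≤ 2 T₀`. -/
theorem echSetOfGeom_three_le_two :
    3 * (genusFF Kb F : ℤ) ≤
      2 * (echSetOfGeom 𝒮 actX pt hpt hg hM₀ hn₁ hn₂ hr₁ hr₂ B 𝔉).T₀ := by
  show 3 * (genusFF Kb F : ℤ) ≤ 2 * (M₀ : ℤ)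
  rw [← hg]
  omega

/-- the tuples are not empty. -/
theorem nonempty_tuplesS : Nonempty (∀ i : Fin g, ↥(𝔉.Fib i)) :=
  ⟨fun i => ⟨(𝔉.nonempty i).choose, (𝔉.nonempty i).choose_spec⟩⟩

/-- integrality of the coordinates. -/
theorem echSetOfGeom_Γ_int (hp : p.Prime) (τ : ∀ i : Fin g, ↥(𝔉.Fib i)) (x : X)
    (i : Fin n₁) (a : Fin r₁) :
    IsIntegral (ratLocalizedAt p)
      ((echSetOfGeom 𝒮 actX pt hpt hg hM₀ hn₁ hn₂ hr₁ hr₂ B 𝔉).Γ τ x i a) :=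
  EchSet.Γ_int hp 𝒮 (echSetOfGeom 𝒮 actX pt hpt hg hM₀ hn₁ hn₂ hr₁ hr₂ B 𝔉)
    (baseAut_gal 𝒮) B.int₁ B.red₁
    (echSetOfGeom_three_le 𝒮 actX pt hpt hg hM₀ hn₁ hn₂ hr₁ hr₂ B 𝔉)
    (isGoodDiv_red_D_ofGeomSet 𝒮 actX pt hpt hg hM₀ hn₁ hn₂ hr₁ hr₂ B 𝔉) τ x i a

/-- integrality of the origin matrices. -/
theorem echSetOfGeom_Xo_int (hp : p.Prime) (τ : ∀ i : Fin g, ↥(𝔉.Fib i)) (x : X)
    (i : Fin n₂) (a : Fin r₂) :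
    IsIntegral (ratLocalizedAt p)
      ((echSetOfGeom 𝒮 actX pt hpt hg hM₀ hn₁ hn₂ hr₁ hr₂ B 𝔉).Xo τ x i a) :=
  EchSet.Xo_int hp 𝒮 (echSetOfGeom 𝒮 actX pt hpt hg hM₀ hn₁ hn₂ hr₁ hr₂ B 𝔉)
    (baseAut_gal 𝒮) B.int₂ B.red₂
    (echSetOfGeom_three_le_two 𝒮 actX pt hpt hg hM₀ hn₁ hn₂ hr₁ hr₂ B 𝔉)
    (isGoodDiv_red_D_ofGeomSet 𝒮 actX pt hpt hg hM₀ hn₁ hn₂ hr₁ hr₂ B 𝔉) τ x i a

/-- `Γ_equiv` with the Galois action of `ℚ̄`. -/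
theorem echSetOfGeom_Γ_equiv (τ : ∀ i : Fin g, ↥(𝔉.Fib i)) (σ : GK) (x : X)
    (i : Fin n₁) (a : Fin r₁) :
    (echSetOfGeom 𝒮 actX pt hpt hg hM₀ hn₁ hn₂ hr₁ hr₂ B 𝔉).Γ
        (fun i => fibPermS 𝔉 i σ (τ i)) (actX σ x) i a =
      σ ((echSetOfGeom 𝒮 actX pt hpt hg hM₀ hn₁ hn₂ hr₁ hr₂ B 𝔉).Γ τ x i a) := by
  have h := (echSetOfGeom 𝒮 actX pt hpt hg hM₀ hn₁ hn₂ hr₁ hr₂ B 𝔉).Γ_equiv_apply σ τ x i a
  rw [← baseAut_gal 𝒮 σ]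
  exact h

/-- `Xo_equiv` with the Galois action of `ℚ̄`. -/
theorem echSetOfGeom_Xo_equiv (τ : ∀ i : Fin g, ↥(𝔉.Fib i)) (σ : GK) (x : X)
    (i : Fin n₂) (a : Fin r₂) :
    (echSetOfGeom 𝒮 actX pt hpt hg hM₀ hn₁ hn₂ hr₁ hr₂ B 𝔉).Xo
        (fun i => fibPermS 𝔉 i σ (τ i)) (actX σ x) i a =
      σ ((echSetOfGeom 𝒮 actX pt hpt hg hM₀ hn₁ hn₂ hr₁ hr₂ B 𝔉).Xo τ x i a) := by
  have h := (echSetOfGeom 𝒮 actX pt hpt hg hM₀ hn₁ hn₂ hr₁ hr₂ B 𝔉).Xo_equiv_apply σ τ x i a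
  rw [← baseAut_gal 𝒮 σ]
  exact h

/-- **the `KMZone` of a zone** `Y` with summands `a y`, `b y`, sum `s y` and origin `o`:
`pt (a y) + pt (b y) = pt (s y) + pt o`. -/
def kmZoneOfGeomSet (hp : p.Prime) {Y : Type} (permY : GK → Y → Y) (a b s : Y → X) (o : X)
    (ha : ∀ (σ : GK) y, actX σ (a y) = a (permY σ y))
    (hb : ∀ (σ : GK) y, actX σ (b y) = b (permY σ y))
    (ho : ∀ σ : GK, actX σ o = o)
    (hsum : ∀ y, pt (a y) + pt (b y) = pt (s y) + pt o) :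
    KMZone p Y permY (fun i : Fin g => ↥(𝔉.Fib i)) (fibPermS 𝔉) n₁ n₂ n₄ r₁ r₂ where
  ρ := 2 * M₀ + 1 - 3 * g
  I₀ := B.I₁
  m₁ := B.m₁
  m₂ := B.m₂
  Γx := fun τ y => (echSetOfGeom 𝒮 actX pt hpt hg hM₀ hn₁ hn₂ hr₁ hr₂ B 𝔉).Γ τ (a y)
  Γy := fun τ y => (echSetOfGeom 𝒮 actX pt hpt hg hM₀ hn₁ hn₂ hr₁ hr₂ B 𝔉).Γ τ (b y)
  Γz := fun τ y => (echSetOfGeom 𝒮 actX pt hpt hg hM₀ hn₁ hn₂ hr₁ hr₂ B 𝔉).Γ τ (s y)
  E₁ := fun τ => (echSetOfGeom 𝒮 actX pt hpt hg hM₀ hn₁ hn₂ hr₁ hr₂ B 𝔉).Γ τ o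
  X := fun τ => (echSetOfGeom 𝒮 actX pt hpt hg hM₀ hn₁ hn₂ hr₁ hr₂ B 𝔉).Xo τ o
  Lx := fun _ => (echSetOfGeom 𝒮 actX pt hpt hg hM₀ hn₁ hn₂ hr₁ hr₂ B 𝔉).Lx
  m₁_int := B.m₁_int
  m₂_int := B.m₂_int
  m₁_fix := B.m₁_fix
  m₂_fix := B.m₂_fix
  Γx_int := fun τ y i c =>
    echSetOfGeom_Γ_int 𝒮 actX pt hpt hg hM₀ hn₁ hn₂ hr₁ hr₂ B 𝔉 hp τ (a y) i c
  Γy_int := fun τ y i c =>
    echSetOfGeom_Γ_int 𝒮 actX pt hpt hg hM₀ hn₁ hn₂ hr₁ hr₂ B 𝔉 hp τ (b y) i c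
  E₁_int := fun τ i c =>
    echSetOfGeom_Γ_int 𝒮 actX pt hpt hg hM₀ hn₁ hn₂ hr₁ hr₂ B 𝔉 hp τ o i c
  X_int := fun τ i c =>
    echSetOfGeom_Xo_int 𝒮 actX pt hpt hg hM₀ hn₁ hn₂ hr₁ hr₂ B 𝔉 hp τ o i c
  Lx_int := fun _ c i =>
    (echSetOfGeom 𝒮 actX pt hpt hg hM₀ hn₁ hn₂ hr₁ hr₂ B 𝔉).Lx_int (ratLocalizedAt p) c i
  Lx_mul_X := fun τ =>
    (echSetOfGeom 𝒮 actX pt hpt hg hM₀ hn₁ hn₂ hr₁ hr₂ B 𝔉).Lx_mul_Xo τ o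
  Γz_ech := fun τ y =>
    (echSetOfGeom 𝒮 actX pt hpt hg hM₀ hn₁ hn₂ hr₁ hr₂ B 𝔉).Γ_ech τ (s y)
  Γx_equiv := fun τ σ y i c => by
    rw [← ha]
    exact echSetOfGeom_Γ_equiv 𝒮 actX pt hpt hg hM₀ hn₁ hn₂ hr₁ hr₂ B 𝔉 τ σ (a y) i c
  Γy_equiv := fun τ σ y i c => by
    rw [← hb]
    exact echSetOfGeom_Γ_equiv 𝒮 actX pt hpt hg hM₀ hn₁ hn₂ hr₁ hr₂ B 𝔉 τ σ (b y) i c
  E₁_equiv := fun τ σ i c => by
    have h := echSetOfGeom_Γ_equiv 𝒮 actX pt hpt hg hM₀ hn₁ hn₂ hr₁ hr₂ B 𝔉 τ σ o i c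
    rw [ho σ] at h
    exact h
  X_equiv := fun τ σ i c => by
    have h := echSetOfGeom_Xo_equiv 𝒮 actX pt hpt hg hM₀ hn₁ hn₂ hr₁ hr₂ B 𝔉 τ σ o i c
    rw [ho σ] at h
    exact h
  good_gen := fun τ y =>
    EchSet.kmGood_gen (mulTableOfGeomSet 𝒮 actX pt hpt hg hM₀ hn₁ hn₂ hr₁ hr₂ B 𝔉)
      (echSetOfGeom_four_le 𝒮 actX pt hpt hg hM₀ hn₁ hn₂ hr₁ hr₂ B 𝔉)
      (rho_eq_set 𝒮 actX pt hpt hg hM₀ hn₁ hn₂ hr₁ hr₂ B 𝔉) τ (hsum y)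
  sum_gen := fun τ y =>
    EchSet.range_Γ (mulTableOfGeomSet 𝒮 actX pt hpt hg hM₀ hn₁ hn₂ hr₁ hr₂ B 𝔉)
      (echSetOfGeom_four_le 𝒮 actX pt hpt hg hM₀ hn₁ hn₂ hr₁ hr₂ B 𝔉) τ (hsum y)
  A₀ := A₀
  hA₀ := 𝒮.hA₀
  good_cl := fun τ y d hd =>
    EchSet.good_cl_geomSetup 𝒮 (echSetOfGeom 𝒮 actX pt hpt hg hM₀ hn₁ hn₂ hr₁ hr₂ B 𝔉)
      B.int₁ B.red₁ B.int₂ B.red₂
      (mulTableOfGeomSet 𝒮 actX pt hpt hg hM₀ hn₁ hn₂ hr₁ hr₂ B 𝔉) B.int₄ B.red₄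
      (echSetOfGeom_four_le 𝒮 actX pt hpt hg hM₀ hn₁ hn₂ hr₁ hr₂ B 𝔉)
      (isGoodDiv_red_D_ofGeomSet 𝒮 actX pt hpt hg hM₀ hn₁ hn₂ hr₁ hr₂ B 𝔉)
      (rho_eq_set 𝒮 actX pt hpt hg hM₀ hn₁ hn₂ hr₁ hr₂ B 𝔉) τ (hsum y) d hd

end Asm

/-- **Geometric assembly with zones.**  `W` is a finite Galois module, `idx w` the index of the
point of `w`, `m : W → Z` an additive Galois-invariant map, `o z z'` a Galois-fixed origin for the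
zone `(z, z')`:  `pt (idx w) + pt (idx w') = pt (idx (w + w')) + pt (o (m w) (m w'))`, and the
points separate the elements of every fibre of `m`. -/
theorem isFlat_of_geomSet [Fact p.Prime] (𝒮 : GeomSetup p F Fk A₀)
    {W : Type} [AddCommGroup W] [Finite W] (act : GK → W → W)
    (hact : ∀ (σ : GK) (w w' : W), act σ (w + w') = act σ w + act σ w')
    (hact_one : ∀ w, act 1 w = w)
    (hact_mul : ∀ (σ τ : GK) w, act (σ * τ) w = act σ (act τ w))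
    {X : Type} (actX : GK → X → X) (pt : X → Pic0 Kb F)
    (hpt : ∀ (σ : GK) (x : X), pt (actX σ x) = 𝒮.gal σ • pt x)
    (idx : W → X) (hidx : ∀ (σ : GK) (w : W), actX σ (idx w) = idx (act σ w))
    {Z : Type} [Finite Z] [Add Z] (m : W → Z) (hm : ∀ w w', m (w + w') = m w + m w')
    (hminv : ∀ (σ : GK) w, m (act σ w) = m w)
    (o : Z → Z → X) (ho : ∀ (σ : GK) z z', actX σ (o z z') = o z z')
    (hsum : ∀ w w', pt (idx w) + pt (idx w') = pt (idx (w + w')) + pt (o (m w) (m w')))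
    (hsep : ∀ w w', m w = m w' → pt (idx w) = pt (idx w') → w = w')
    {g M₀ n₁ n₂ n₄ r₁ r₂ : ℕ} (hg : g = genusFF Kb F) (hM₀ : 4 * g + 2 ≤ M₀)
    (hn₁ : n₁ + g = M₀ + 1) (hn₂ : n₂ + g = 2 * M₀ + 1) (hr₁ : r₁ + g = n₁) (hr₂ : r₂ + g = n₂)
    (B : RatBases 𝒮 M₀ n₁ n₂ n₄ r₁ r₂) (𝔉 : GoodFibresSet 𝒮 pt g) :
    IsFlatGaloisModule p W act := by
  classical
  have hp : p.Prime := Fact.out
  haveI : ∀ i : Fin g, Finite ↥(𝔉.Fib i) := fun i => (𝔉.fin i).to_subtype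
  haveI : Finite 𝔉.J := 𝔉.finJ
  have hperm_one : ∀ (i : Fin g) (P : ↥(𝔉.Fib i)), fibPermS 𝔉 i 1 P = P := by
    intro i P
    apply Subtype.ext
    show 𝒮.gal 1 • (P : Place Kb F) = P
    rw [map_one, one_smul]
  have hperm_mul : ∀ (i : Fin g) (σ τ : GK) (P : ↥(𝔉.Fib i)),
      fibPermS 𝔉 i (σ * τ) P = fibPermS 𝔉 i σ (fibPermS 𝔉 i τ P) := by
    intro i σ τ P
    apply Subtype.ext
    show 𝒮.gal (σ * τ) • (P : Place Kb F) = 𝒮.gal σ • (𝒮.gal τ • (P : Place Kb F))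
    rw [map_mul, mul_smul]
  refine isFlat_of_coords_fibres_zones act hact (ι := Fin n₁ × Fin r₁) (fibPermS 𝔉)
    (fun i j P => 𝔉.s i j P.1) (fun i j P => 𝔉.s_int i j P.1 P.2)
    (fun i j σ P => 𝔉.s_eq i j σ P.1 P.2) A₀ 𝒮.hA₀
    (fun i P P' hne => 𝔉.unit i P.1 P'.1 P.2 P'.2 (fun h => hne (Subtype.ext h)))
    (fun τ j w =>
      (echSetOfGeom 𝒮 actX pt hpt hg hM₀ hn₁ hn₂ hr₁ hr₂ B 𝔉).Γ τ (idx w) j.1 j.2)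
    ?_ ?_ m hm hminv ?_ ?_
  · -- integrality
    intro τ j w
    exact echSetOfGeom_Γ_int 𝒮 actX pt hpt hg hM₀ hn₁ hn₂ hr₁ hr₂ B 𝔉 hp τ (idx w) j.1 j.2
  · -- equivariance
    intro τ j σ w
    show (echSetOfGeom 𝒮 actX pt hpt hg hM₀ hn₁ hn₂ hr₁ hr₂ B 𝔉).Γ
        (fun i => fibPermS 𝔉 i σ (τ i)) (idx (act σ w)) j.1 j.2 = _
    rw [← hidx]
    exact echSetOfGeom_Γ_equiv 𝒮 actX pt hpt hg hM₀ hn₁ hn₂ hr₁ hr₂ B 𝔉 τ σ (idx w) j.1 j.2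
  · -- separation
    intro w w' hmw hc
    obtain ⟨τ₀⟩ := nonempty_tuplesS 𝒮 pt 𝔉
    refine hsep w w' hmw ?_
    refine (echSetOfGeom 𝒮 actX pt hpt hg hM₀ hn₁ hn₂ hr₁ hr₂ B 𝔉).cls_eq_of_Γ_eq
      (echSetOfGeom_three_le 𝒮 actX pt hpt hg hM₀ hn₁ hn₂ hr₁ hr₂ B 𝔉) (τ := τ₀) ?_
    ext i a
    exact hc τ₀ (i, a)
  · -- the addition polynomial of a zone
    intro z z' τ j
    let Y : Type := {y : W × W // m y.1 = z ∧ m y.2 = z'}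
    let permY : GK → Y → Y := fun σ y =>
      ⟨(act σ y.1.1, act σ y.1.2), by rw [hminv, hminv]; exact y.2⟩
    have hpermY_one : ∀ y : Y, permY 1 y = y := by
      intro y
      apply Subtype.ext
      exact Prod.ext (hact_one y.1.1) (hact_one y.1.2)
    have hpermY_mul : ∀ (σ τ : GK) (y : Y), permY (σ * τ) y = permY σ (permY τ y) := by
      intro σ τ y
      apply Subtype.ext
      exact Prod.ext (hact_mul σ τ y.1.1) (hact_mul σ τ y.1.2)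
    have hsumY : ∀ y : Y, pt (idx y.1.1) + pt (idx y.1.2) =
        pt (idx (y.1.1 + y.1.2)) + pt (o z z') := by
      intro y
      have h := hsum y.1.1 y.1.2
      rw [y.2.1, y.2.2] at h
      exact h
    obtain ⟨P, hP⟩ := exists_poly_of_kmZone permY hpermY_one hpermY_mul (fibPermS 𝔉)
      hperm_one hperm_mul
      (kmZoneOfGeomSet 𝒮 actX pt hpt hg hM₀ hn₁ hn₂ hr₁ hr₂ B 𝔉 hp permY
        (fun y => idx y.1.1) (fun y => idx y.1.2) (fun y => idx (y.1.1 + y.1.2)) (o z z')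
        (fun σ y => hidx σ y.1.1) (fun σ y => hidx σ y.1.2) (fun σ => ho σ z z') hsumY)
      τ j.1 j.2
    exact ⟨P, fun w w' hw hw' => hP ⟨(w, w'), hw, hw'⟩⟩

end Fermat.Agent.FFKum
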