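/-
E' / DESC-FL, seat FL-K (owner helper72), part KumTransfer (helper24): the KUMMER MODULE of a
division point, and the statement `FlatKummerAt`.

For `R₀ ∈ J₀(N)(ℚ̄)` with `ℓ^k • R₀` fixed by `G_ℚ` (a division point of a rational point `P`):
* `kumCoc N ℓ k R₀ h σ = σ R₀ - R₀ ∈ J₀(N)[ℓ^k]`, the Kummer cocycle;
* `KumMod N ℓ k = J₀(N)[ℓ^k] × ℤ/ℓ^k` with `kumAct σ (t, m) = (σ t + m (σ R₀ - R₀), m)`:
  the extension of `ℤ/ℓ^k` by `J₀(N)[ℓ^k]` of class `κ(P)`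
  (`= {R : ℓ^k R ∈ ℤ P} / ℤ P` when `P` has infinite order);
* `FlatKummerAt N ℓ k` : every Kummer module at level `N` is the module of `ℚ̄`-points of a finite
  flat group scheme over `ℤ_(ℓ)`.
-/
import Mathlib
import Fermat.Agent.Lib.FF.Transfer

set_option autoImplicit false
set_option linter.style.haveILetI false

noncomputable section

namespace Fermat.Agent.FFKum

open ModularCurve AlgebraicCurve Fermat.Agent.FF Fermat.Agent.FlatMod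

local notation "GK" => (AlgebraicClosure ℚ ≃ₐ[ℚ] AlgebraicClosure ℚ)

/-- the Galois action on `J₀(N)(ℚ̄)` as an additive map. -/
def galHom (N : ℕ) (σ : GK) : JZero N →+ JZero N := DistribSMul.toAddMonoidHom (JZero N) σ

theorem galHom_apply (N : ℕ) (σ : GK) (x : JZero N) : galHom N σ x = σ • x := rfl

theorem gal_nsmul (N : ℕ) (σ : GK) (m : ℕ) (x : JZero N) : σ • (m • x) = m • (σ • x) :=
  map_nsmul (galHom N σ) m x

theorem gal_sub (N : ℕ) (σ : GK) (x y : JZero N) : σ • (x - y) = σ • x - σ • y :=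
  map_sub (galHom N σ) x y

theorem gal_add (N : ℕ) (σ : GK) (x y : JZero N) : σ • (x + y) = σ • x + σ • y :=
  map_add (galHom N σ) x y

/-- membership in the `ℓ^k`-torsion, with natural numbers. -/
theorem mem_torsionBy_pow_iff (N ℓ k : ℕ) (x : JZero N) :
    x ∈ Submodule.torsionBy ℤ (JZero N) ((ℓ : ℤ) ^ k) ↔ ℓ ^ k • x = 0 := by
  rw [Submodule.mem_torsionBy_iff]
  have h : ((ℓ : ℤ) ^ k) • x = ℓ ^ k • x := by
    rw [← natCast_zsmul]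
    push_cast
    rfl
  rw [h]

/-- the underlying group of the Kummer module. -/
abbrev KumMod (N ℓ k : ℕ) : Type :=
  ↥(Submodule.torsionBy ℤ (JZero N) ((ℓ : ℤ) ^ k)) × ZMod (ℓ ^ k)

/-- **the Kummer cocycle** `σ ↦ σ R₀ - R₀` of a division point, with values in `J₀(N)[ℓ^k]`. -/
def kumCoc (N ℓ k : ℕ) (R₀ : JZero N) (h : ∀ σ : GK, σ • (ℓ ^ k • R₀) = ℓ ^ k • R₀) (σ : GK) :
    ↥(Submodule.torsionBy ℤ (JZero N) ((ℓ : ℤ) ^ k)) :=
  ⟨σ • R₀ - R₀, by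
    rw [mem_torsionBy_pow_iff, nsmul_sub, ← gal_nsmul, h σ, sub_self]⟩

@[simp]
theorem coe_kumCoc (N ℓ k : ℕ) (R₀ : JZero N) (h : ∀ σ : GK, σ • (ℓ ^ k • R₀) = ℓ ^ k • R₀)
    (σ : GK) : ((kumCoc N ℓ k R₀ h σ : ↥(Submodule.torsionBy ℤ (JZero N) ((ℓ : ℤ) ^ k))) :
      JZero N) = σ • R₀ - R₀ := rfl

/-- the cocycle relation. -/
theorem kumCoc_mul (N ℓ k : ℕ) (R₀ : JZero N) (h : ∀ σ : GK, σ • (ℓ ^ k • R₀) = ℓ ^ k • R₀)
    (σ τ : GK) :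
    kumCoc N ℓ k R₀ h (σ * τ) =
      kumCoc N ℓ k R₀ h σ + torsAct N ((ℓ : ℤ) ^ k) σ (kumCoc N ℓ k R₀ h τ) := by
  apply Subtype.ext
  show (σ * τ) • R₀ - R₀ = (σ • R₀ - R₀) + σ • (τ • R₀ - R₀)
  rw [mul_smul, gal_sub]
  abel

theorem kumCoc_one (N ℓ k : ℕ) (R₀ : JZero N) (h : ∀ σ : GK, σ • (ℓ ^ k • R₀) = ℓ ^ k • R₀) :
    kumCoc N ℓ k R₀ h 1 = 0 := by
  apply Subtype.ext
  show (1 : GK) • R₀ - R₀ = 0
  rw [one_smul, sub_self]

/-- multiples of an `ℓ^k`-torsion class only depend on the multiplier modulo `ℓ^k`. -/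
theorem mod_nsmul_torsion (N ℓ k : ℕ) (x : ↥(Submodule.torsionBy ℤ (JZero N) ((ℓ : ℤ) ^ k)))
    (a : ℕ) : (a % ℓ ^ k) • x = a • x := by
  have hx : ℓ ^ k • x = 0 := by
    apply Subtype.ext
    have := (mem_torsionBy_pow_iff N ℓ k (x : JZero N)).mp x.2
    simpa using this
  conv_rhs => rw [← Nat.mod_add_div a (ℓ ^ k)]
  rw [add_nsmul, mul_comm, mul_nsmul', hx, smul_zero, add_zero]

theorem val_add_nsmul (N ℓ k : ℕ) [NeZero (ℓ ^ k)]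
    (x : ↥(Submodule.torsionBy ℤ (JZero N) ((ℓ : ℤ) ^ k))) (a b : ZMod (ℓ ^ k)) :
    (a + b).val • x = a.val • x + b.val • x := by
  rw [ZMod.val_add, mod_nsmul_torsion, add_nsmul]

/-- **the twisted Galois action** on the Kummer module. -/
def kumAct (N ℓ k : ℕ) (R₀ : JZero N) (h : ∀ σ : GK, σ • (ℓ ^ k • R₀) = ℓ ^ k • R₀) (σ : GK)
    (e : KumMod N ℓ k) : KumMod N ℓ k :=
  (torsAct N ((ℓ : ℤ) ^ k) σ e.1 + e.2.val • kumCoc N ℓ k R₀ h σ, e.2)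

@[simp]
theorem kumAct_fst (N ℓ k : ℕ) (R₀ : JZero N) (h : ∀ σ : GK, σ • (ℓ ^ k • R₀) = ℓ ^ k • R₀)
    (σ : GK) (e : KumMod N ℓ k) :
    (kumAct N ℓ k R₀ h σ e).1 = torsAct N ((ℓ : ℤ) ^ k) σ e.1 + e.2.val • kumCoc N ℓ k R₀ h σ :=
  rfl

@[simp]
theorem kumAct_snd (N ℓ k : ℕ) (R₀ : JZero N) (h : ∀ σ : GK, σ • (ℓ ^ k • R₀) = ℓ ^ k • R₀)
    (σ : GK) (e : KumMod N ℓ k) : (kumAct N ℓ k R₀ h σ e).2 = e.2 := rfl

theorem torsAct_add (N : ℕ) (n : ℤ) (σ : GK) (x y : ↥(Submodule.torsionBy ℤ (JZero N) n)) :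
    torsAct N n σ (x + y) = torsAct N n σ x + torsAct N n σ y := by
  apply Subtype.ext
  exact gal_add N σ (x : JZero N) (y : JZero N)

theorem torsAct_nsmul (N : ℕ) (n : ℤ) (σ : GK) (m : ℕ)
    (x : ↥(Submodule.torsionBy ℤ (JZero N) n)) :
    torsAct N n σ (m • x) = m • torsAct N n σ x := by
  apply Subtype.ext
  show σ • ((m • x : ↥(Submodule.torsionBy ℤ (JZero N) n)) : JZero N) = _
  rw [Submodule.coe_smul_of_tower, gal_nsmul]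
  rfl

theorem torsAct_mul (N : ℕ) (n : ℤ) (σ τ : GK) (x : ↥(Submodule.torsionBy ℤ (JZero N) n)) :
    torsAct N n (σ * τ) x = torsAct N n σ (torsAct N n τ x) := by
  apply Subtype.ext
  exact mul_smul σ τ (x : JZero N)

theorem torsAct_one (N : ℕ) (n : ℤ) (x : ↥(Submodule.torsionBy ℤ (JZero N) n)) :
    torsAct N n 1 x = x := by
  apply Subtype.ext
  exact one_smul GK (x : JZero N)

/-- the twisted action is additive. -/
theorem kumAct_add (N ℓ k : ℕ) [NeZero (ℓ ^ k)] (R₀ : JZero N)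
    (h : ∀ σ : GK, σ • (ℓ ^ k • R₀) = ℓ ^ k • R₀) (σ : GK) (e e' : KumMod N ℓ k) :
    kumAct N ℓ k R₀ h σ (e + e') = kumAct N ℓ k R₀ h σ e + kumAct N ℓ k R₀ h σ e' := by
  refine Prod.ext ?_ rfl
  show torsAct N _ σ (e.1 + e'.1) + (e.2 + e'.2).val • kumCoc N ℓ k R₀ h σ
    = (torsAct N _ σ e.1 + e.2.val • kumCoc N ℓ k R₀ h σ)
      + (torsAct N _ σ e'.1 + e'.2.val • kumCoc N ℓ k R₀ h σ)
  rw [torsAct_add, val_add_nsmul]
  abel

/-- the twisted action is an action. -/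
theorem kumAct_mul (N ℓ k : ℕ) (R₀ : JZero N)
    (h : ∀ σ : GK, σ • (ℓ ^ k • R₀) = ℓ ^ k • R₀) (σ τ : GK) (e : KumMod N ℓ k) :
    kumAct N ℓ k R₀ h (σ * τ) e = kumAct N ℓ k R₀ h σ (kumAct N ℓ k R₀ h τ e) := by
  refine Prod.ext ?_ rfl
  show torsAct N _ (σ * τ) e.1 + e.2.val • kumCoc N ℓ k R₀ h (σ * τ)
    = torsAct N _ σ (torsAct N _ τ e.1 + e.2.val • kumCoc N ℓ k R₀ h τ)
      + e.2.val • kumCoc N ℓ k R₀ h σ
  rw [torsAct_mul, kumCoc_mul, torsAct_add, torsAct_nsmul, nsmul_add]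
  abel

theorem kumAct_one (N ℓ k : ℕ) (R₀ : JZero N)
    (h : ∀ σ : GK, σ • (ℓ ^ k • R₀) = ℓ ^ k • R₀) (e : KumMod N ℓ k) :
    kumAct N ℓ k R₀ h 1 e = e := by
  refine Prod.ext ?_ rfl
  show torsAct N _ 1 e.1 + e.2.val • kumCoc N ℓ k R₀ h 1 = e.1
  rw [torsAct_one, kumCoc_one, smul_zero, add_zero]

/-- the sub-object `J₀(N)[ℓ^k]` of the Kummer module. -/
def kumIncl (N ℓ k : ℕ) : ↥(Submodule.torsionBy ℤ (JZero N) ((ℓ : ℤ) ^ k)) →+ KumMod N ℓ k :=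
  AddMonoidHom.inl _ _

theorem kumIncl_act (N ℓ k : ℕ) (R₀ : JZero N)
    (h : ∀ σ : GK, σ • (ℓ ^ k • R₀) = ℓ ^ k • R₀) (σ : GK)
    (t : ↥(Submodule.torsionBy ℤ (JZero N) ((ℓ : ℤ) ^ k))) :
    kumIncl N ℓ k (torsAct N ((ℓ : ℤ) ^ k) σ t) = kumAct N ℓ k R₀ h σ (kumIncl N ℓ k t) := by
  refine Prod.ext ?_ rfl
  show torsAct N _ σ t = torsAct N _ σ t + (0 : ZMod (ℓ ^ k)).val • kumCoc N ℓ k R₀ h σ
  rw [ZMod.val_zero, zero_smul, add_zero]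

/-- the quotient `ℤ/ℓ^k` of the Kummer module (trivial action). -/
def kumProj (N ℓ k : ℕ) : KumMod N ℓ k →+ ZMod (ℓ ^ k) := AddMonoidHom.snd _ _

theorem kumProj_act (N ℓ k : ℕ) (R₀ : JZero N)
    (h : ∀ σ : GK, σ • (ℓ ^ k • R₀) = ℓ ^ k • R₀) (σ : GK) (e : KumMod N ℓ k) :
    kumProj N ℓ k (kumAct N ℓ k R₀ h σ e) = kumProj N ℓ k e := rfl

/-- **FL-K at level `N`**: the Kummer module of every division point `R₀` of a rational point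
(`ℓ^k • R₀` fixed by `G_ℚ`) is the module of `ℚ̄`-points of a finite flat commutative group scheme
over `ℤ_(ℓ)`. -/
def FlatKummerAt (N ℓ k : ℕ) : Prop :=
  ∀ (R₀ : JZero N) (h : ∀ σ : GK, σ • (ℓ ^ k • R₀) = ℓ ^ k • R₀),
    IsFlatGaloisModule ℓ (KumMod N ℓ k) (kumAct N ℓ k R₀ h)

/-- FL-K contains the flatness of the torsion (`S19`). -/
theorem flatTorsionAt_of_flatKummerAt {N ℓ k : ℕ} [Fact ℓ.Prime] (h : FlatKummerAt N ℓ k) :
    FlatTorsionAt N ℓ k := by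
  have h0 : ∀ σ : GK, σ • (ℓ ^ k • (0 : JZero N)) = ℓ ^ k • (0 : JZero N) := by
    intro σ
    rw [smul_zero]
    exact map_zero (galHom N σ)
  exact isFlat_of_injective_aux (h 0 h0) (kumIncl N ℓ k)
    (fun x y hxy => (Prod.ext_iff.mp hxy).1) (fun σ t => kumIncl_act N ℓ k 0 h0 σ t)

end Fermat.Agent.FFKum
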