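/-
E' / DESC-FL, seat FL-K (owner helper72), part KUMPT: the POINTS of the Kummer module.

For a division point `R₀` (`ℓ^k • R₀` fixed by `G_ℚ`) the element `(t, m)` of the Kummer module
`KumMod N ℓ k = J₀(N)[ℓ^k] × ℤ/ℓ^k` is the point `t + m.val • R₀` of `J₀(N)(ℚ̄)`.  These points
do not form a group: `pt e + pt e' = pt (e + e') + carry • P`, `P = ℓ^k • R₀`, and the carry is
constant on the ZONES `{(e, e') : e.2 = z, e'.2 = z'}`.

* `kumPt`      : the class of an index; the index set is `Option (KumMod N ℓ k)`,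
                 `none ↦ P = ℓ^k • R₀` (the origin of the zones with a carry);
* `kumActO`    : the Galois action on the index set; `kumPt_actO` (equivariance);
* `kumOrigin`  : the origin of the zone `(z, z')`: `some 0` (no carry) or `none` (carry);
* `kumPt_add`  : `pt e + pt e' = pt (e + e') + pt (origin e.2 e'.2)`;
* `kumPt_sep`  : `pt` is injective on the fibres of `Prod.snd`.
-/
import Mathlib
import Fermat.Agent.Lib.FF.Kum.KumDefs

set_option autoImplicit false
set_option linter.style.haveILetI false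

noncomputable section

namespace Fermat.Agent.FFKum

open ModularCurve AlgebraicCurve Fermat.Agent.FF Fermat.Agent.FlatMod

local notation "GK" => (AlgebraicClosure ℚ ≃ₐ[ℚ] AlgebraicClosure ℚ)

variable (N ℓ k : ℕ) (R₀ : JZero N)

/-- **the class of an index**: `(t, m) ↦ t + m.val • R₀`, `none ↦ ℓ^k • R₀`. -/
def kumPt : Option (KumMod N ℓ k) → JZero N
  | some e => (e.1 : JZero N) + e.2.val • R₀
  | none => ℓ ^ k • R₀

@[simp]
theorem kumPt_some (e : KumMod N ℓ k) :
    kumPt N ℓ k R₀ (some e) = (e.1 : JZero N) + e.2.val • R₀ := rfl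

@[simp]
theorem kumPt_none : kumPt N ℓ k R₀ none = ℓ ^ k • R₀ := rfl

theorem kumPt_some_zero : kumPt N ℓ k R₀ (some 0) = 0 := by
  show ((0 : ↥(Submodule.torsionBy ℤ (JZero N) ((ℓ : ℤ) ^ k))) : JZero N)
    + (0 : ZMod (ℓ ^ k)).val • R₀ = 0
  rw [ZMod.val_zero, zero_nsmul, add_zero]
  rfl

variable (h : ∀ σ : GK, σ • (ℓ ^ k • R₀) = ℓ ^ k • R₀)

/-- the Galois action on the index set. -/
def kumActO (σ : GK) : Option (KumMod N ℓ k) → Option (KumMod N ℓ k) :=
  Option.map (kumAct N ℓ k R₀ h σ)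

@[simp]
theorem kumActO_some (σ : GK) (e : KumMod N ℓ k) :
    kumActO N ℓ k R₀ h σ (some e) = some (kumAct N ℓ k R₀ h σ e) := rfl

@[simp]
theorem kumActO_none (σ : GK) : kumActO N ℓ k R₀ h σ none = none := rfl

theorem coe_nsmul_tors (n : ℤ) (m : ℕ) (x : ↥(Submodule.torsionBy ℤ (JZero N) n)) :
    ((m • x : ↥(Submodule.torsionBy ℤ (JZero N) n)) : JZero N) = m • (x : JZero N) :=
  Submodule.coe_smul_of_tower m x

/-- **equivariance of the points.** -/
theorem kumPt_actO (σ : GK) (x : Option (KumMod N ℓ k)) :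
    kumPt N ℓ k R₀ (kumActO N ℓ k R₀ h σ x) = σ • kumPt N ℓ k R₀ x := by
  cases x with
  | none => exact (h σ).symm
  | some e =>
    show ((torsAct N ((ℓ : ℤ) ^ k) σ e.1 + e.2.val • kumCoc N ℓ k R₀ h σ :
        ↥(Submodule.torsionBy ℤ (JZero N) ((ℓ : ℤ) ^ k))) : JZero N) + e.2.val • R₀
      = σ • ((e.1 : JZero N) + e.2.val • R₀)
    rw [Submodule.coe_add, coe_nsmul_tors, coe_torsAct, coe_kumCoc, gal_add, gal_nsmul,
      nsmul_sub]
    abel

theorem kumAct_zero (σ : GK) : kumAct N ℓ k R₀ h σ 0 = 0 := by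
  refine Prod.ext ?_ rfl
  show torsAct N ((ℓ : ℤ) ^ k) σ 0 + (0 : ZMod (ℓ ^ k)).val • kumCoc N ℓ k R₀ h σ = 0
  rw [ZMod.val_zero, zero_nsmul, add_zero]
  apply Subtype.ext
  show σ • (0 : JZero N) = 0
  exact smul_zero (A := JZero N) σ

/-- **the origin of a zone**: `some 0` if there is no carry, `none` (the point `P`) if there
is one. -/
def kumOrigin (z z' : ZMod (ℓ ^ k)) : Option (KumMod N ℓ k) :=
  if z.val + z'.val < ℓ ^ k then some 0 else none

theorem kumActO_origin (σ : GK) (z z' : ZMod (ℓ ^ k)) :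
    kumActO N ℓ k R₀ h σ (kumOrigin N ℓ k z z') = kumOrigin N ℓ k z z' := by
  unfold kumOrigin
  split_ifs
  · rw [kumActO_some, kumAct_zero]
  · rfl

/-- **the carry relation**: `pt e + pt e' = pt (e + e') + pt (origin of the zone)`. -/
theorem kumPt_add [NeZero (ℓ ^ k)] (e e' : KumMod N ℓ k) :
    kumPt N ℓ k R₀ (some e) + kumPt N ℓ k R₀ (some e') =
      kumPt N ℓ k R₀ (some (e + e')) + kumPt N ℓ k R₀ (kumOrigin N ℓ k e.2 e'.2) := by
  have ha : e.2.val < ℓ ^ k := ZMod.val_lt e.2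
  have hb : e'.2.val < ℓ ^ k := ZMod.val_lt e'.2
  have hsum : kumPt N ℓ k R₀ (some (e + e')) =
      ((e.1 : JZero N) + (e'.1 : JZero N)) + ((e.2.val + e'.2.val) % ℓ ^ k) • R₀ := by
    show ((e.1 + e'.1 : ↥(Submodule.torsionBy ℤ (JZero N) ((ℓ : ℤ) ^ k))) : JZero N)
      + (e.2 + e'.2).val • R₀ = _
    rw [Submodule.coe_add, ZMod.val_add]
  rw [hsum, kumPt_some, kumPt_some]
  unfold kumOrigin
  split_ifs with hlt
  · rw [kumPt_some_zero, add_zero, Nat.mod_eq_of_lt hlt, add_nsmul]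
    abel
  · have hmod : (e.2.val + e'.2.val) % ℓ ^ k = e.2.val + e'.2.val - ℓ ^ k := by
      rw [Nat.mod_eq_sub_mod (not_lt.mp hlt), Nat.mod_eq_of_lt (by omega)]
    have hsplit : e.2.val + e'.2.val = (e.2.val + e'.2.val - ℓ ^ k) + ℓ ^ k := by omega
    rw [kumPt_none, hmod, add_assoc ((e.1 : JZero N) + (e'.1 : JZero N)), ← add_nsmul, ← hsplit,
      add_nsmul]
    abel

/-- **separation**: on a fibre of `Prod.snd` the points are distinct. -/
theorem kumPt_sep (e e' : KumMod N ℓ k) (h2 : e.2 = e'.2)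
    (hpt : kumPt N ℓ k R₀ (some e) = kumPt N ℓ k R₀ (some e')) : e = e' := by
  refine Prod.ext (Subtype.ext ?_) h2
  rw [kumPt_some, kumPt_some, h2] at hpt
  exact add_right_cancel hpt

end Fermat.Agent.FFKum
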