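/-
E' / DESC-FL, seat FL-K (owner helper72), FINAL: the Kummer extension is FLAT.

* `flatKummerAt_aux` : `FlatKummerAt M ℓ k` at the auxiliary levels (`4 ∣ M` or `9 ∣ M`, `ℓ ∤ M`),
  by the geometric assembly with zones (`isFlat_of_geomSet`, Lib/FF/Kum/KumAsm.lean) on the modular
  `GeomSetup`, with the points `t + m.val • R₀` of the Kummer module (Lib/FF/Kum/KumPt.lean);
* `flatKummerAt`     : `FlatKummerAt N ℓ k` for every level `N ≠ 0` and every prime `ℓ ∤ N`;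
* `isFlat_extAct_kummer` : the form used by the descent (a sub-module `W ⊆ J₀(N)[ℓ^k]` containing
  the values of the Kummer cocycle of a division point `R` of a rational point).
-/
import Mathlib
import Fermat.Agent.Lib.FF.Kum.KumAsm
import Fermat.Agent.Lib.FF.Kum.KumPt
import Fermat.Agent.Lib.FF.Kum.KumTransfer
import Fermat.Agent.Lib.FF.ModBases
import Fermat.Agent.Lib.Frobenius.Exists

set_option autoImplicit false
set_option linter.style.haveILetI false
set_option synthInstance.maxHeartbeats 400000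

noncomputable section

namespace Fermat.Agent.FFKum

open AlgebraicCurve ModularCurve GaloisRep Fermat.Agent.RR Fermat.Agent.Deuring
  Fermat.Agent.FFGoodEll Fermat.Agent.GaussInt Fermat.Agent.FlatMod Fermat.Agent.FF

local notation "Kb" => AlgebraicClosure ℚ
local notation "GK" => (AlgebraicClosure ℚ ≃ₐ[ℚ] AlgebraicClosure ℚ)

/-- **FL-K at the auxiliary levels.** -/
theorem flatKummerAt_aux (M ℓ k : ℕ) [NeZero M] (hℓ : ℓ.Prime) (hℓM : ¬ ℓ ∣ M)
    (h49 : 4 ∣ M ∨ 9 ∣ M) : FlatKummerAt M ℓ k := by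
  intro R₀ h
  haveI : Fact ℓ.Prime := ⟨hℓ⟩
  haveI : NeZero (ℓ ^ k) := ⟨(pow_pos hℓ.pos k).ne'⟩
  obtain ⟨A₀, hA⟩ := Fermat.Agent.FrobExists.exists_valuationSubring_liesOver ℓ hℓ
  haveI : Finite ↥(Submodule.torsionBy ℤ (JZero M) ((ℓ : ℤ) ^ k)) := by
    have := Fermat.Agent.FF.finite_torsionBy M (ℓ ^ k) (pow_pos hℓ.pos k)
    simpa using this
  haveI : Finite (KumMod M ℓ k) := Finite.instProd
  set g := genusFF Kb (modularFunctionFieldBar M) with hg
  obtain ⟨n₄, ⟨B⟩⟩ := exists_ratBases_modGeomSetup A₀ ℓ M hℓ hA hℓM h49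
    (g := g) (M₀ := 4 * g + 2) (n₁ := 3 * g + 3) (n₂ := 7 * g + 5) (r₁ := 2 * g + 3)
    (r₂ := 6 * g + 5) hg (by omega) (by omega) (by omega) (by omega) (by omega)
  obtain ⟨𝔉⟩ := nonempty_goodFibresSet_modular A₀ ℓ M hℓ hA hℓM h49 (kumPt M ℓ k R₀)
  exact isFlat_of_geomSet (modGeomSetup A₀ ℓ M hℓ hA hℓM h49) (kumAct M ℓ k R₀ h)
    (kumAct_add M ℓ k R₀ h) (kumAct_one M ℓ k R₀ h) (kumAct_mul M ℓ k R₀ h)
    (kumActO M ℓ k R₀ h) (kumPt M ℓ k R₀) (fun σ x => kumPt_actO M ℓ k R₀ h σ x)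
    some (fun σ w => rfl) (m := Prod.snd) (fun w w' => rfl) (fun σ w => rfl)
    (kumOrigin M ℓ k) (fun σ z z' => kumActO_origin M ℓ k R₀ h σ z z')
    (fun w w' => kumPt_add M ℓ k R₀ w w') (fun w w' h2 hpt => kumPt_sep M ℓ k R₀ w w' h2 hpt)
    hg (le_refl _) (by omega) (by omega) (by omega) (by omega) B 𝔉

/-- **FL-K**: for every level `N ≠ 0`, every prime `ℓ ∤ N` and every `k`, the Kummer module of
every division point `R₀` of a rational point (`ℓ^k • R₀` fixed by `G_ℚ`) is the module of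
`ℚ̄`-points of a finite flat commutative group scheme over `ℤ_(ℓ)`. -/
theorem flatKummerAt (N ℓ k : ℕ) [NeZero N] [Fact ℓ.Prime] (hℓN : ¬ ℓ ∣ N) :
    FlatKummerAt N ℓ k :=
  flatKummerAt_of_aux N ℓ k hℓN fun M hM hℓM h49 =>
    haveI : NeZero M := ⟨hM⟩
    flatKummerAt_aux M ℓ k Fact.out hℓM h49

/-- **FL-K, the form used by the descent**: for a Galois sub-module `W ⊆ J₀(N)[ℓ^k]` containing
the values `σ R - R` of the Kummer cocycle of a division point `R` of a rational point, the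
extension module `W × ℤ/ℓ^k` of the cocycle is flat at `ℓ`. -/
theorem isFlat_extAct_kummer {N ℓ k : ℕ} [NeZero N] [Fact ℓ.Prime] (hℓN : ¬ ℓ ∣ N)
    {W : Type} [AddCommGroup W] (actW : GK → W → W) (ι : W →+ JZero N)
    (hι : Function.Injective ι) (hιact : ∀ σ w, ι (actW σ w) = σ • ι w)
    (hιtors : ∀ w, (ℓ ^ k) • ι w = 0)
    (R : JZero N) (hR : ∀ σ : GK, σ • ((ℓ ^ k) • R) = (ℓ ^ k) • R)
    (c : GK → W) (hc : ∀ σ, ι (c σ) = σ • R - R) :
    IsFlatGaloisModule ℓ (W × ZMod (ℓ ^ k)) (extAct actW (ℓ ^ k) c) :=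
  isFlat_extAct_of_flatKummerAt (flatKummerAt N ℓ k hℓN) actW ι hι hιact hιtors R hR c hc

end Fermat.Agent.FFKum
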