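/-
E' / DESC-FL, seat FL-K (owner helper72), part FIBRES (helper24): the good fibres for a FINITE SET
of classes.

`FF.GoodFibres 𝒮 ι g` (Lib/FF/GeomDefs.lean) is stated for an additive map `ι : W →+ Pic⁰` on a
finite group.  For the Kummer extension `E_P` of a point `P` of infinite order the classes
`t + m R₀` do not form a group; what the pipeline really uses is the FINITE SET of classes.

* `GoodFibresSet 𝒮 pt g`       : the same fields as `FF.GoodFibres`, for `pt : X → Pic⁰`, `X` any type;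
* `GoodFibres.toSet`, `GoodFibresSet.toGroup` : the two structures agree for an additive `ι`;
* `GoodFibresSet.comp`         : restriction along a map `X' → X`;
* `exists_indices_goodFibres_set` : abstract pigeonhole (helper20's `exists_indices_good`);
* `nonempty_goodFibresSet_modular` : the modular instance, for every finite `X`.
-/
import Mathlib
import Fermat.Agent.Lib.FF.GoodEll.ModFibres

set_option autoImplicit false
set_option linter.style.haveILetI false
set_option linter.unusedSectionVars false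
set_option synthInstance.maxHeartbeats 400000
set_option maxHeartbeats 1000000

noncomputable section

open AlgebraicCurve ModularCurve

namespace Fermat.Agent.FFKum

open Fermat.Agent.RR Fermat.Agent.Deuring Fermat.Agent.FF Fermat.Agent.GaussInt GaloisRep
  Fermat.Agent.FFGoodEll

local notation "Kb" => AlgebraicClosure ℚ
local notation "GK" => (AlgebraicClosure ℚ ≃ₐ[ℚ] AlgebraicClosure ℚ)

section Abstract

variable {p : ℕ} {F Fk : Type} [Field F] [Algebra Kb F] {A₀ : ValuationSubring Kb} [Field Fk]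
  [Algebra (IsLocalRing.ResidueField A₀) Fk]

/-- **the good fibres for a set of classes** `pt : X → Pic⁰`: the fields of `FF.GoodFibres`,
without a group structure on the index set. -/
structure GoodFibresSet (𝒮 : GeomSetup p F Fk A₀) {X : Type} (pt : X → Pic0 Kb F) (g : ℕ) where
  Fib : Fin g → Set (Place Kb F)
  fin : ∀ i, (Fib i).Finite
  nonempty : ∀ i, (Fib i).Nonempty
  stable : ∀ i (σ : GK) P, P ∈ Fib i → 𝒮.gal σ • P ∈ Fib i
  /-- index set of the separating functions -/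
  J : Type
  finJ : Finite J
  /-- values of the separating functions -/
  s : Fin g → J → Place Kb F → Kb
  s_int : ∀ i j P, P ∈ Fib i → IsIntegral (ratLocalizedAt p) (s i j P)
  s_eq : ∀ i j (σ : GK) P, P ∈ Fib i → s i j (𝒮.gal σ • P) = σ (s i j P)
  /-- two distinct places of `Fib i` are separated by a unit AT THE ONE PLACE `A₀` -/
  unit : ∀ i P P', P ∈ Fib i → P' ∈ Fib i → P ≠ P' →
    ∃ j, A₀.valuation (s i j P - s i j P') = 1
  /-- goodness of every tuple at `A₀` -/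
  good : ∀ τ : Fin g → Place Kb F, (∀ i, τ i ∈ Fib i) → ∀ (x : X) (D : Divisor Kb F)
    (hD : D ∈ Divisor.degZero (K := Kb) (F := F)), Pic0.mk ⟨D, hD⟩ = pt x →
      IsGoodDiv (𝒮.r 𝒮.oo) (redDiv 𝒮.r (D + sumTuple τ))

/-- the group form is a special case. -/
def GoodFibresSet.toGroup {𝒮 : GeomSetup p F Fk A₀} {W : Type} [AddCommGroup W]
    {ι : W →+ Pic0 Kb F} {g : ℕ} (𝔉 : GoodFibresSet 𝒮 (fun w => ι w) g) : GoodFibres 𝒮 ι g where
  Fib := 𝔉.Fib
  fin := 𝔉.fin
  nonempty := 𝔉.nonempty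
  stable := 𝔉.stable
  J := 𝔉.J
  finJ := 𝔉.finJ
  s := 𝔉.s
  s_int := 𝔉.s_int
  s_eq := 𝔉.s_eq
  unit := 𝔉.unit
  good := 𝔉.good

/-- the group form gives the set form. -/
def GoodFibresSet.ofGroup {𝒮 : GeomSetup p F Fk A₀} {W : Type} [AddCommGroup W]
    {ι : W →+ Pic0 Kb F} {g : ℕ} (𝔉 : GoodFibres 𝒮 ι g) : GoodFibresSet 𝒮 (fun w => ι w) g where
  Fib := 𝔉.Fib
  fin := 𝔉.fin
  nonempty := 𝔉.nonempty
  stable := 𝔉.stable
  J := 𝔉.J
  finJ := 𝔉.finJ
  s := 𝔉.s
  s_int := 𝔉.s_int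
  s_eq := 𝔉.s_eq
  unit := 𝔉.unit
  good := 𝔉.good

/-- restriction along a map of index sets. -/
def GoodFibresSet.comp {𝒮 : GeomSetup p F Fk A₀} {X X' : Type} {pt : X → Pic0 Kb F} {g : ℕ}
    (𝔉 : GoodFibresSet 𝒮 pt g) (f : X' → X) : GoodFibresSet 𝒮 (fun x => pt (f x)) g where
  Fib := 𝔉.Fib
  fin := 𝔉.fin
  nonempty := 𝔉.nonempty
  stable := 𝔉.stable
  J := 𝔉.J
  finJ := 𝔉.finJ
  s := 𝔉.s
  s_int := 𝔉.s_int
  s_eq := 𝔉.s_eq
  unit := 𝔉.unit
  good := fun τ hτ x D hD h => 𝔉.good τ hτ (f x) D hD h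

/-- goodness in characteristic `0` follows from goodness of the reduction. -/
theorem GoodFibresSet.good_gen {𝒮 : GeomSetup p F Fk A₀} {X : Type} {pt : X → Pic0 Kb F} {g : ℕ}
    (𝔉 : GoodFibresSet 𝒮 pt g) (τ : Fin g → Place Kb F) (hτ : ∀ i, τ i ∈ 𝔉.Fib i) (x : X)
    (D : Divisor Kb F) (hD : D ∈ Divisor.degZero (K := Kb) (F := F))
    (h : Pic0.mk ⟨D, hD⟩ = pt x) : IsGoodDiv 𝒮.oo (D + sumTuple τ) := by
  have h1 := 𝔉.good τ hτ x D hD h
  exact IsGoodDiv.of_reduction 𝒮.S 𝒮.hL 𝒮.hr.push 𝒮.hg (by rwa [redDiv_apply] at h1)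

/-- **FIB (d) for a finite set of classes**: there are `g` distinct indices `m i`, off a given
finite set `T`, such that EVERY tuple `τ i ∈ cycloFib p x (m i)` is good at `A₀`, for every class
`pt a` (`a : X`, `X` finite). -/
theorem exists_indices_goodFibres_set (𝒮 : GeomSetup p F Fk A₀) (hp : p.Prime)
    {X : Type} [Finite X] (pt : X → Pic0 Kb F)
    {x : F} (hx : x ∈ 𝒮.S.Ov)
    (htr : Transcendental (IsLocalRing.ResidueField A₀) (𝒮.S.red x))
    (hdeg : Divisor.degree (poleDiv 𝒮.S.hFk (𝒮.S.red x)) = Divisor.degree (poleDiv 𝒮.S.hF x))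
    (T : Finset ℕ) :
    ∃ m : Fin (genusFF Kb F) → ℕ, Function.Injective m ∧ (∀ i, m i ∉ T) ∧
      ∀ τ : Fin (genusFF Kb F) → Place Kb F, (∀ i, τ i ∈ cycloFib p x (m i)) →
        ∀ (a : X) (D : Divisor Kb F) (hD : D ∈ Divisor.degZero (K := Kb) (F := F)),
          Pic0.mk ⟨D, hD⟩ = pt a →
            IsGoodDiv (𝒮.r 𝒮.oo) (redDiv 𝒮.r (D + sumTuple τ)) ∧
              IsGoodDiv 𝒮.oo (D + sumTuple τ) := by
  classical
  letI : Fintype X := Fintype.ofFinite X
  -- representatives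
  have hrep : ∀ a : X, ∃ D : Divisor.degZero (K := Kb) (F := F), Pic0.mk D = pt a :=
    fun a => Pic0.mk_surjective (pt a)
  choose D₀ hD₀ using hrep
  obtain ⟨m, hminj, hmT, hm⟩ := exists_indices_good 𝒮.S 𝒮.hL 𝒮.hr 𝒮.hg
    (fibCompat_of_isReduction 𝒮.hr hx htr hdeg) (geomValueSeq 𝒮 hp) 𝒮.oo
    (Finset.univ.image fun a => (D₀ a : Divisor Kb F))
    (by
      intro Y hY
      obtain ⟨a, -, rfl⟩ := Finset.mem_image.mp hY
      exact (D₀ a).2) T
  refine ⟨m, hminj, hmT, fun τ hτ a D hD hDa => ?_⟩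
  have h0 := hm τ hτ (D₀ a : Divisor Kb F) (Finset.mem_image_of_mem _ (Finset.mem_univ a))
  have hXX' : D - (D₀ a : Divisor Kb F) ∈ Divisor.principal (K := Kb) (F := F) := by
    have h1 : Pic0.mk ⟨D, hD⟩ = Pic0.mk (D₀ a) := hDa.trans (hD₀ a).symm
    have h2 := (QuotientAddGroup.eq (s := (Divisor.principal (K := Kb) (F := F)).addSubgroupOf
      (Divisor.degZero (K := Kb) (F := F)))).mp h1
    rw [AddSubgroup.mem_addSubgroupOf] at h2
    have h3 : (((-⟨D, hD⟩ + D₀ a : Divisor.degZero (K := Kb) (F := F))) : Divisor Kb F)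
        = -(D - (D₀ a : Divisor Kb F)) := by
      rw [AddSubgroup.coe_add, AddSubgroup.coe_neg]
      abel
    rw [h3] at h2
    exact (AddSubgroup.neg_mem_iff _).mp h2
  have h1 : IsGoodDiv (𝒮.r 𝒮.oo) (redDiv 𝒮.r (D + sumTuple τ)) :=
    isGoodDiv_redDiv_congr 𝒮.hr hXX' h0.1
  refine ⟨h1, ?_⟩
  exact IsGoodDiv.of_reduction 𝒮.S 𝒮.hL 𝒮.hr.push 𝒮.hg (by rwa [redDiv_apply] at h1)

end Abstract

section Modular

variable (A₀ : ValuationSubring Kb) (ℓ M : ℕ) [NeZero M]
  (hℓ : ℓ.Prime) (hA : A₀.LiesOverPrime ℓ) (hℓM : ¬ ℓ ∣ M) (h49 : 4 ∣ M ∨ 9 ∣ M)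

/-- **FIB for a finite set of classes, modular instance**: for every finite family of classes
`pt : X → J₀(M)(ℚ̄)` the modular setup at `A₀` carries good fibres. -/
theorem nonempty_goodFibresSet_modular {X : Type} [Finite X]
    (pt : X → Pic0 Kb ↥(modularFunctionFieldBar M)) :
    Nonempty (GoodFibresSet (modGeomSetup A₀ ℓ M hℓ hA hℓM h49) pt
      (genusFF Kb ↥(modularFunctionFieldBar M))) := by
  classical
  set 𝒮 := modGeomSetup A₀ ℓ M hℓ hA hℓM h49 with h𝒮
  have hRR : IsRRField Kb ↥(modularFunctionFieldBar M) := Fermat.Agent.RRMod.isRRField_bar M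
  have hgen : genusFF Kb ↥(modularFunctionFieldBar M) =
      genusFF (IsLocalRing.ResidueField A₀)
        ↥(modularFunctionFieldFullC (IsLocalRing.ResidueField A₀) M) := 𝒮.hg
  -- the separating family
  obtain ⟨n, b, hbfix, -, hbval, hbsep⟩ := exists_sepFamily A₀ ℓ M hℓ hA hℓM hgen
  -- the good indices
  obtain ⟨m, -, hmT, hm⟩ := exists_indices_goodFibres_set 𝒮 hℓ pt
    (x := Fermat.Agent.S24.jBar M) (jBar_mem_Ov A₀ ℓ M hℓ hA hℓM)
    (transcendental_red_jBar A₀ ℓ M hℓ hA hℓM) (degree_poleDiv_red_jBar A₀ ℓ M hℓ hA hℓM)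
    (finite_badIndices A₀ ℓ M hℓ hA hℓM).toFinset
  have hfixj : ∀ σ : GK, 𝒮.gal σ • Fermat.Agent.S24.jBar M = Fermat.Agent.S24.jBar M :=
    fun σ => Fermat.Agent.FFGoodEll.galQ_smul_jBar M σ
  refine ⟨{
    Fib := fun i => cycloFib ℓ (Fermat.Agent.S24.jBar M) (m i)
    fin := fun i => finite_cycloFib hRR _ _
    nonempty := fun i => cycloFib_nonempty hRR (Fermat.Agent.S24.transcendental_jBar M) _
    stable := fun i σ P hP => gal_smul_mem_cycloFib 𝒮 hfixj (m i) σ hP
    J := Option (Fin n)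
    finJ := inferInstance
    s := fun _ => sepValue M b
    s_int := ?_
    s_eq := ?_
    unit := ?_
    good := fun τ hτ a D hD hDa => (hm τ hτ a D hD hDa).1 }⟩
  · -- integrality
    intro i j P hP
    obtain ⟨t, ht, hPt⟩ := mem_cycloFib.mp hP
    have htint : IsIntegral (ratLocalizedAt ℓ) t :=
      isIntegral_cycloΘ (ratLocalizedAt ℓ) (mem_cycloΘ.mpr ht)
    cases j with
    | none =>
      show IsIntegral (ratLocalizedAt ℓ) (valueAt _ P (Fermat.Agent.S24.jBar M))
      rw [valueAt_jBar M hPt]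
      exact htint
    | some a =>
      exact isIntegral_valueAt_of_fibre A₀ ℓ M hℓ hA (fun σ => hbfix a σ)
        (fun t' ht' P' hP' => hbval t' ht' P' hP' a) htint hPt
  · -- equivariance
    intro i j σ P _
    cases j with
    | none => exact valueAt_galQ M σ P (Fermat.Agent.FF.galQ_smul_jBar M σ)
    | some a => exact valueAt_galQ M σ P (hbfix a σ)
  · -- separation by units
    intro i P P' hP hP' hne
    obtain ⟨t, ht, hPt⟩ := mem_cycloFib.mp hP
    obtain ⟨t', ht', hPt'⟩ := mem_cycloFib.mp hP'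
    by_cases htt : t = t'
    · subst htt
      have htA : t ∈ A₀ := cycloΘ_mem_valuationSubring A₀ (mem_cycloΘ.mpr ht)
      have hbad : IsLocalRing.residue A₀ ⟨t, htA⟩ ∉ badValues A₀ M := by
        intro hb
        apply hmT i
        rw [Set.Finite.mem_toFinset]
        exact ⟨t, mem_cycloΘ.mpr ht, hb⟩
      obtain ⟨a, ha⟩ := hbsep t htA hbad P P' hPt hPt' hne
      exact ⟨some a, ha⟩
    · refine ⟨none, ?_⟩
      show A₀.valuation (valueAt _ P (Fermat.Agent.S24.jBar M)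
        - valueAt _ P' (Fermat.Agent.S24.jBar M)) = 1
      rw [valueAt_jBar M hPt, valueAt_jBar M hPt']
      exact valuation_sub_cycloΘ A₀ hℓ hA (mem_cycloΘ.mpr ht) (mem_cycloΘ.mpr ht') htt

end Modular

end Fermat.Agent.FFKum
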