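/-
E' / DESC-FL, seat FL-K (owner helper72), part ECHSET: the echelon coordinates for a SET of
classes, with a VARIABLE ORIGIN (affine Khuri-Makdisi).

`FFGeom.EchData` (Lib/FF/GeomEch.lean) is stated for an additive map `cls : W →+ Pic⁰` and has the
level-2 matrix `X τ` only for the origin `E τ = D τ 0`.  For the Kummer extension we need

* `EchSet G K F X T`      : the same inputs with `cls : X → Pic⁰` a FUNCTION on a set `X`;
* `EchSet.D τ x`          : THE effective divisor with `D - E τ` of class `cls x`; `D_equiv`;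
* `EchSet.toEch`          : the `EchData` on the trivial group with tuples `T × X` and base divisors
                            `D τ x` (all results of GeomEch / GeomInt apply to it);
* `EchSet.Γ τ x`          : echelon matrix of `L(T₀ P - D τ x)` in `b₁`, pivots `I₁`;
* `EchSet.Xo τ x`         : echelon matrix of `L(2 T₀ P - D τ x)` in `b₂`, pivots `I₂`
                            (the matrix `E₂` of a Khuri-Makdisi step with ORIGIN `x`);
* `EchSet.Lx`             : the pivot selector, a left inverse of every `Xo τ x`;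
* `echSetOfGeom`          : the `EchSet` of a `GeomSetup` with `RatBases` and `GoodFibresSet`.
-/
import Mathlib
import Fermat.Agent.Lib.FF.GeomEch
import Fermat.Agent.Lib.FF.GeomInst
import Fermat.Agent.Lib.FF.GeomGood
import Fermat.Agent.Lib.FF.Kum.FibSet

set_option autoImplicit false
set_option linter.style.haveILetI false

noncomputable section

open AlgebraicCurve GaloisRep Fermat.Agent.RR Fermat.Agent.RRMult Fermat.Agent.Deuring
  Fermat.Agent.FFGoodEll Fermat.Agent.FF Fermat.Agent.FFGal Fermat.Agent.FFGeom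

namespace Fermat.Agent.FFKum

/-- **Inputs of the echelon coordinates for a set of classes**: `FFGeom.EchData` with
`cls : X → Pic⁰` a function on a set `X` (no group structure). -/
structure EchSet (G K F X T : Type) [Group G] [Field K] [Field F] [Algebra K F] where
  hF : IsRRField K F
  /-- the place `∞` -/
  P : Place K F
  /-- `M₀` -/
  T₀ : ℤ
  hT₀ : 3 * (genusFF K F : ℤ) - 1 ≤ T₀
  n₁ : ℕ
  n₂ : ℕ
  r : ℕ
  e₂ : ℕ
  /-- basis of `L(T₀ P)` -/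
  b₁ : Fin n₁ → F
  /-- basis of `L(2 T₀ P)` -/
  b₂ : Fin n₂ → F
  /-- pivots in `b₁` -/
  I₁ : Fin r → Fin n₁
  /-- pivots in `b₂` -/
  I₂ : Fin e₂ → Fin n₂
  hb₁ : LinearIndependent K b₁
  hb₂ : LinearIndependent K b₂
  span₁ : Submodule.span K (Set.range b₁) = riemannRochSpace (Finsupp.single P T₀)
  span₂ : Submodule.span K (Set.range b₂) = riemannRochSpace (Finsupp.single P (2 * T₀))
  chart₁ : chartSpan K b₁ I₁ = riemannRochSpace (Finsupp.single P (2 * (genusFF K F : ℤ) - 1))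
  chart₂ : chartSpan K b₂ I₂ = riemannRochSpace (Finsupp.single P (2 * (genusFF K F : ℤ) - 1))
  hr : (r : ℤ) = T₀ + 1 - 2 * (genusFF K F : ℤ)
  he₂ : (e₂ : ℤ) = 2 * T₀ + 1 - 2 * (genusFF K F : ℤ)
  /-- the class of a point -/
  cls : X → Pic0 K F
  /-- the divisor `E_τ` of a tuple -/
  E : T → Divisor K F
  E_nonneg : ∀ τ, 0 ≤ E τ
  E_deg : ∀ τ, Divisor.degree (E τ) = (genusFF K F : ℤ)
  /-- goodness in characteristic `0`: the effective divisor `D ∼ X_x + E_τ` is good -/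
  good : ∀ τ x, ∃ D : Divisor K F, IsRepOf (cls x) (E τ) D ∧ IsGoodDiv P D
  /-- the Galois action -/
  gal : G →* SemilinearAut K F
  act : G → X → X
  perm : G → T → T
  gal_P : ∀ σ, gal σ • P = P
  gal_b₁ : ∀ σ i, gal σ • b₁ i = b₁ i
  gal_b₂ : ∀ σ i, gal σ • b₂ i = b₂ i
  cls_act : ∀ σ x, cls (act σ x) = gal σ • cls x
  E_perm : ∀ σ τ, E (perm σ τ) = gal σ • E τ

namespace EchSet

variable {G K F X T : Type} [Group G] [Field K] [Field F] [Algebra K F]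
  (d : EchSet G K F X T)

/-- THE effective divisor `D_x^τ ∼ cls x + E_τ`. -/
def D (τ : T) (x : X) : Divisor K F := (d.good τ x).choose

theorem isRepOf_D (τ : T) (x : X) : IsRepOf (d.cls x) (d.E τ) (d.D τ x) :=
  (d.good τ x).choose_spec.1

theorem isGoodDiv_D (τ : T) (x : X) : IsGoodDiv d.P (d.D τ x) :=
  (d.good τ x).choose_spec.2

theorem D_nonneg (τ : T) (x : X) : 0 ≤ d.D τ x := (d.isRepOf_D τ x).1

theorem degree_D (τ : T) (x : X) : Divisor.degree (d.D τ x) = (genusFF K F : ℤ) := by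
  obtain ⟨-, h0, -⟩ := d.isRepOf_D τ x
  have h1 : Divisor.degree (d.D τ x - d.E τ) = 0 := Divisor.mem_degZero.mp h0
  rw [map_sub, d.E_deg] at h1
  omega

theorem ell_D (τ : T) (x : X) : ell (d.D τ x) = 1 :=
  (d.isGoodDiv_D τ x).ell_eq_one d.hF (d.degree_D τ x)

/-- uniqueness: every representative is `D τ x`. -/
theorem eq_D {τ : T} {x : X} {D' : Divisor K F} (h : IsRepOf (d.cls x) (d.E τ) D') :
    D' = d.D τ x :=
  IsRepOf.unique d.hF (d.isRepOf_D τ x) (d.ell_D τ x) h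

/-- `D τ x` depends only on the class of `x`. -/
theorem D_congr (τ : T) {x x' : X} (h : d.cls x = d.cls x') : d.D τ x = d.D τ x' := by
  apply d.eq_D
  rw [← h]
  exact d.isRepOf_D τ x

/-- **equivariance of the divisors**: `D_{σ x}^{σ τ} = σ • D_x^τ`. -/
theorem D_equiv (σ : G) (τ : T) (x : X) :
    d.D (d.perm σ τ) (d.act σ x) = d.gal σ • d.D τ x := by
  have h := d.isRepOf_D (d.perm σ τ) (d.act σ x)
  rw [d.cls_act, d.E_perm] at h
  exact IsRepOf.smul_eq d.hF (d.gal σ) (d.isRepOf_D τ x) (d.ell_D τ x) h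

/-- a divisor is a representative of the class `0` relative to itself. -/
theorem isRepOf_zero_self {E : Divisor K F} (hE : 0 ≤ E) : IsRepOf (0 : Pic0 K F) E E := by
  refine ⟨hE, by rw [sub_self]; exact zero_mem _, ?_⟩
  have : (⟨E - E, by rw [sub_self]; exact zero_mem _⟩ :
      Divisor.degZero (K := K) (F := F)) = 0 := Subtype.ext (sub_self _)
  rw [this]
  rfl

/-- **the `EchData` with base divisors `D τ x`** (trivial group, tuples `T × X`). -/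
def toEch : EchData G K F Unit (T × X) where
  hF := d.hF
  P := d.P
  T₀ := d.T₀
  hT₀ := d.hT₀
  n₁ := d.n₁
  n₂ := d.n₂
  r := d.r
  e₂ := d.e₂
  b₁ := d.b₁
  b₂ := d.b₂
  I₁ := d.I₁
  I₂ := d.I₂
  hb₁ := d.hb₁
  hb₂ := d.hb₂
  span₁ := d.span₁
  span₂ := d.span₂
  chart₁ := d.chart₁
  chart₂ := d.chart₂
  hr := d.hr
  he₂ := d.he₂
  cls := 0
  E := fun τx => d.D τx.1 τx.2
  E_nonneg := fun τx => d.D_nonneg τx.1 τx.2
  E_deg := fun τx => d.degree_D τx.1 τx.2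
  good := fun τx _ => ⟨d.D τx.1 τx.2, isRepOf_zero_self (d.D_nonneg τx.1 τx.2),
    d.isGoodDiv_D τx.1 τx.2⟩
  gal := d.gal
  act := fun _ u => u
  perm := fun σ τx => (d.perm σ τx.1, d.act σ τx.2)
  gal_P := d.gal_P
  gal_b₁ := d.gal_b₁
  gal_b₂ := d.gal_b₂
  cls_act := fun σ _ => by
    show (0 : Pic0 K F) = d.gal σ • (0 : Pic0 K F)
    exact (smul_zero (A := Pic0 K F) (d.gal σ)).symm
  E_perm := fun σ τx => d.D_equiv σ τx.1 τx.2

@[simp] theorem toEch_E (τ : T) (x : X) : d.toEch.E (τ, x) = d.D τ x := rfl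
@[simp] theorem toEch_P : d.toEch.P = d.P := rfl
@[simp] theorem toEch_T₀ : d.toEch.T₀ = d.T₀ := rfl
@[simp] theorem toEch_b₁ : d.toEch.b₁ = d.b₁ := rfl
@[simp] theorem toEch_b₂ : d.toEch.b₂ = d.b₂ := rfl
@[simp] theorem toEch_perm (σ : G) (τ : T) (x : X) :
    d.toEch.perm σ (τ, x) = (d.perm σ τ, d.act σ x) := rfl

theorem toEch_D (τ : T) (x : X) (u : Unit) : d.toEch.D (τ, x) u = d.D τ x :=
  d.toEch.D_zero (τ, x)

/-! ### `Γ` -/

/-- **the echelon matrix of `L(T₀ P - D_x^τ)`**. -/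
def Γ (τ : T) (x : X) : Matrix (Fin d.n₁) (Fin d.r) K := d.toEch.Γ (τ, x) 0

theorem Γ_ech (τ : T) (x : X) : (d.Γ τ x).submatrix d.I₁ id = 1 :=
  d.toEch.Γ_ech (τ, x) 0

theorem colSpan_Γ (τ : T) (x : X) :
    colSpan d.b₁ (d.Γ τ x) = riemannRochSpace (Finsupp.single d.P d.T₀ - d.D τ x) :=
  d.toEch.colSpan_Γ_zero (τ, x)

/-- characterisation of `Γ τ x`. -/
theorem Γ_eq {τ : T} {x : X} {Γ' : Matrix (Fin d.n₁) (Fin d.r) K}
    (h1 : Γ'.submatrix d.I₁ id = 1)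
    (h2 : colSpan d.b₁ Γ' = riemannRochSpace (Finsupp.single d.P d.T₀ - d.D τ x)) :
    d.Γ τ x = Γ' :=
  echelon_eq_of_colSpan_eq d.hb₁ h1 (d.Γ_ech τ x) ((d.colSpan_Γ τ x).trans h2.symm)

/-- `Γ τ x` depends only on the class of `x`. -/
theorem Γ_congr (τ : T) {x x' : X} (h : d.cls x = d.cls x') : d.Γ τ x = d.Γ τ x' :=
  d.Γ_eq (d.Γ_ech τ x') (by rw [d.colSpan_Γ, d.D_congr τ h])

/-- **equivariance of `Γ`**. -/
theorem Γ_equiv (σ : G) (τ : T) (x : X) :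
    d.Γ (d.perm σ τ) (d.act σ x) = (d.Γ τ x).map (SemilinearAut.baseAut (d.gal σ)) :=
  d.toEch.Γ_equiv σ (τ, x) 0

theorem Γ_equiv_apply (σ : G) (τ : T) (x : X) (i : Fin d.n₁) (a : Fin d.r) :
    d.Γ (d.perm σ τ) (d.act σ x) i a = SemilinearAut.baseAut (d.gal σ) (d.Γ τ x i a) := by
  rw [d.Γ_equiv]
  rfl

/-! ### `Xo` and `Lx` -/

/-- **the echelon matrix of `L(2 T₀ P - D_x^τ)`** (the matrix `E₂` for the origin `x`). -/
def Xo (τ : T) (x : X) : Matrix (Fin d.n₂) (Fin d.e₂) K := d.toEch.X (τ, x)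

theorem Xo_ech (τ : T) (x : X) : (d.Xo τ x).submatrix d.I₂ id = 1 :=
  d.toEch.X_ech (τ, x)

theorem colSpan_Xo (τ : T) (x : X) :
    colSpan d.b₂ (d.Xo τ x) = riemannRochSpace (Finsupp.single d.P (2 * d.T₀) - d.D τ x) :=
  d.toEch.colSpan_X (τ, x)

theorem Xo_eq {τ : T} {x : X} {X' : Matrix (Fin d.n₂) (Fin d.e₂) K}
    (h1 : X'.submatrix d.I₂ id = 1)
    (h2 : colSpan d.b₂ X' = riemannRochSpace (Finsupp.single d.P (2 * d.T₀) - d.D τ x)) :
    d.Xo τ x = X' :=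
  echelon_eq_of_colSpan_eq d.hb₂ h1 (d.Xo_ech τ x) ((d.colSpan_Xo τ x).trans h2.symm)

/-- `Xo τ x` depends only on the class of `x`. -/
theorem Xo_congr (τ : T) {x x' : X} (h : d.cls x = d.cls x') : d.Xo τ x = d.Xo τ x' :=
  d.Xo_eq (d.Xo_ech τ x') (by rw [d.colSpan_Xo, d.D_congr τ h])

/-- **equivariance of `Xo`**. -/
theorem Xo_equiv (σ : G) (τ : T) (x : X) :
    d.Xo (d.perm σ τ) (d.act σ x) = (d.Xo τ x).map (SemilinearAut.baseAut (d.gal σ)) :=
  d.toEch.X_equiv σ (τ, x)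

theorem Xo_equiv_apply (σ : G) (τ : T) (x : X) (i : Fin d.n₂) (a : Fin d.e₂) :
    d.Xo (d.perm σ τ) (d.act σ x) i a = SemilinearAut.baseAut (d.gal σ) (d.Xo τ x i a) := by
  rw [d.Xo_equiv]
  rfl

/-- the left inverse of every `Xo τ x`: the pivot selector. -/
def Lx : Matrix (Fin d.e₂) (Fin d.n₂) K := pivotSel K d.I₂

theorem Lx_mul_Xo (τ : T) (x : X) : d.Lx * d.Xo τ x = 1 := by
  unfold Lx
  rw [pivotSel_mul, d.Xo_ech]

theorem Lx_apply (a : Fin d.e₂) (i : Fin d.n₂) :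
    d.Lx a i = if i = d.I₂ a then 1 else 0 := rfl

theorem Lx_map {K' : Type*} [Field K'] (f : K →+* K') :
    d.Lx.map f = pivotSel K' d.I₂ := by
  ext a i
  rw [Matrix.map_apply, Lx_apply]
  unfold pivotSel
  split_ifs
  · exact map_one f
  · exact map_zero f

/-- the entries of `Lx` are integral over any subring. -/
theorem Lx_int (R : Type*) [CommRing R] [Algebra R K] (a : Fin d.e₂) (i : Fin d.n₂) :
    IsIntegral R (d.Lx a i) := by
  rw [Lx_apply]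
  split_ifs
  · exact isIntegral_one
  · exact isIntegral_zero

/-! ### separation -/

/-- `Γ τ x` determines the divisor `D τ x`. -/
theorem D_eq_of_Γ_eq (hT₀ : 3 * (genusFF K F : ℤ) ≤ d.T₀) {τ : T} {x x' : X}
    (h : d.Γ τ x = d.Γ τ x') : d.D τ x = d.D τ x' := by
  have h1 : riemannRochSpace (Finsupp.single d.P d.T₀ - d.D τ x)
      = riemannRochSpace (Finsupp.single d.P d.T₀ - d.D τ x') := by
    rw [← d.colSpan_Γ, ← d.colSpan_Γ, h]
  have hdeg : ∀ y, Divisor.degree (Finsupp.single d.P d.T₀ - d.D τ y)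
      = d.T₀ - (genusFF K F : ℤ) := fun y => by
    rw [map_sub, degree_single_one d.hF, d.degree_D]
  have h2 := Fermat.Agent.FFGeomGood.eq_of_rrSpace_eq d.hF (by rw [hdeg]; omega)
    (by rw [hdeg]; omega) h1
  exact sub_right_injective h2

/-- `Γ τ x` determines the class of `x`. -/
theorem cls_eq_of_Γ_eq (hT₀ : 3 * (genusFF K F : ℤ) ≤ d.T₀) {τ : T} {x x' : X}
    (h : d.Γ τ x = d.Γ τ x') : d.cls x = d.cls x' := by
  have hD := d.D_eq_of_Γ_eq hT₀ h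
  obtain ⟨-, a, ha⟩ := d.isRepOf_D τ x
  obtain ⟨-, a', ha'⟩ := d.isRepOf_D τ x'
  rw [← ha, ← ha']
  refine congrArg Pic0.mk (Subtype.ext ?_)
  show d.D τ x - d.E τ = d.D τ x' - d.E τ
  rw [hD]

end EchSet

/-! ### the `EchSet` of a geometric setup -/

local notation "Kb" => AlgebraicClosure ℚ
local notation "GK" => (AlgebraicClosure ℚ ≃ₐ[ℚ] AlgebraicClosure ℚ)

variable {p : ℕ} {F Fk : Type} [Field F] [Algebra Kb F] {A₀ : ValuationSubring Kb} [Field Fk]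
  [Algebra (IsLocalRing.ResidueField A₀) Fk]

section Fibres

variable {𝒮 : GeomSetup p F Fk A₀} {X : Type} {pt : X → Pic0 Kb F} {g : ℕ}

/-- the Galois action on the tower `Fib i`. -/
def fibPermS (𝔉 : GoodFibresSet 𝒮 pt g) (i : Fin g) (σ : GK) (P : ↥(𝔉.Fib i)) : ↥(𝔉.Fib i) :=
  ⟨𝒮.gal σ • P.1, 𝔉.stable i σ P.1 P.2⟩

@[simp]
theorem coe_fibPermS (𝔉 : GoodFibresSet 𝒮 pt g) (i : Fin g) (σ : GK) (P : ↥(𝔉.Fib i)) :
    ((fibPermS 𝔉 i σ P : ↥(𝔉.Fib i)) : Place Kb F) = 𝒮.gal σ • (P : Place Kb F) := rfl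

/-- the divisor `E_τ` of a tuple. -/
def tupDivS (𝔉 : GoodFibresSet 𝒮 pt g) (τ : ∀ i : Fin g, ↥(𝔉.Fib i)) : Divisor Kb F :=
  sumTuple fun i => ((τ i : ↥(𝔉.Fib i)) : Place Kb F)

theorem tupDivS_perm (𝔉 : GoodFibresSet 𝒮 pt g) (σ : GK) (τ : ∀ i : Fin g, ↥(𝔉.Fib i)) :
    tupDivS 𝔉 (fun i => fibPermS 𝔉 i σ (τ i)) = 𝒮.gal σ • tupDivS 𝔉 τ := by
  unfold tupDivS
  rw [smul_sumTuple]
  rfl

/-- existence of the effective good representative `D_x^τ`. -/
theorem exists_isRepOf_tupDivS (𝔉 : GoodFibresSet 𝒮 pt g) (hg : g = genusFF Kb F)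
    (τ : ∀ i : Fin g, ↥(𝔉.Fib i)) (x : X) :
    ∃ D : Divisor Kb F, IsRepOf (pt x) (tupDivS 𝔉 τ) D ∧ IsGoodDiv 𝒮.oo D := by
  obtain ⟨⟨Y, hY⟩, hYx⟩ := Pic0.mk_surjective (pt x)
  refine exists_isRepOf_of_isGoodDiv 𝒮.hRR hY hYx ?_
    (𝔉.good_gen (fun i => ((τ i : ↥(𝔉.Fib i)) : Place Kb F)) (fun i => (τ i).2) x Y hY hYx)
  unfold tupDivS
  rw [degree_sumTuple 𝒮.hRR, hg]

end Fibres

section Inst

variable (𝒮 : GeomSetup p F Fk A₀) {X : Type} (act : GK → X → X)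
  (pt : X → Pic0 Kb F) (hpt : ∀ (σ : GK) (x : X), pt (act σ x) = 𝒮.gal σ • pt x)
  {g M₀ n₁ n₂ n₄ r₁ r₂ : ℕ} (hg : g = genusFF Kb F) (hM₀ : 4 * g + 2 ≤ M₀)
  (hn₁ : n₁ + g = M₀ + 1) (hn₂ : n₂ + g = 2 * M₀ + 1) (hr₁ : r₁ + g = n₁) (hr₂ : r₂ + g = n₂)
  (B : RatBases 𝒮 M₀ n₁ n₂ n₄ r₁ r₂) (𝔉 : GoodFibresSet 𝒮 pt g)

/-- **the echelon data (set form) of a geometric setup.** -/
def echSetOfGeom : EchSet GK Kb F X (∀ i : Fin g, ↥(𝔉.Fib i)) where
  hF := 𝒮.hRR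
  P := 𝒮.oo
  T₀ := (M₀ : ℤ)
  hT₀ := by omega
  n₁ := n₁
  n₂ := n₂
  r := r₁
  e₂ := r₂
  b₁ := B.b₁
  b₂ := B.b₂
  I₁ := B.I₁
  I₂ := B.I₂
  hb₁ := B.li₁
  hb₂ := B.li₂
  span₁ := B.span₁
  span₂ := by
    rw [B.span₂]
    unfold GeomSetup.T
    rw [Finsupp.smul_single]
    congr 2
  chart₁ := B.chart₁
  chart₂ := B.chart₂
  hr := by omega
  he₂ := by omega
  cls := pt
  E := tupDivS 𝔉
  E_nonneg := fun τ => sumTuple_nonneg _
  E_deg := fun τ => by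
    unfold tupDivS
    rw [degree_sumTuple 𝒮.hRR, hg]
  good := fun τ x => exists_isRepOf_tupDivS 𝔉 hg τ x
  gal := 𝒮.gal
  act := act
  perm := fun σ τ i => fibPermS 𝔉 i σ (τ i)
  gal_P := 𝒮.gal_oo
  gal_b₁ := B.fix₁
  gal_b₂ := B.fix₂
  cls_act := hpt
  E_perm := fun σ τ => tupDivS_perm 𝔉 σ τ

end Inst

end Fermat.Agent.FFKum
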