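/-
E' / DESC-FL, seat FL-K (owner helper72), part GOODSET: AFFINE Khuri-Makdisi for the echelon
coordinates of an `EchSet` (Lib/FF/Kum/EchSet.lean).

For `x y z o : X` with `cls x + cls y = cls z + cls o` (the sum `z` of `x` and `y` relative to the
ORIGIN `o`) and the Khuri-Makdisi data
`kmData μ τ x y o = (Γx := Γ τ x, Γy := Γ τ y, E₁ := Γ τ o, E₂ := Xo τ o)`:

* `kmHyp`       : the Riemann-Roch hypotheses `KMHyp` for `D τ x, D τ y, D τ z, E := D τ o`;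
* `kmGood_gen`  : `KMGood (kmData μ τ x y o) ρ I₁` on the generic fibre;
* `range_Γ`     : `range (Γ τ z).mulVecLin = (kmData μ τ x y o).W₃`;
* `good_cl`, `good_cl_geomSetup` : `KMGood` of the reduction of every integral model;
* `Γ_int`, `Xo_int` : integrality of the entries over `ℤ_(p)`.

(The group case of S19 is `o = 0`, `z = x + y`: GeomGood / GeomCl / GeomInt.)
-/
import Mathlib
import Fermat.Agent.Lib.FF.Kum.EchSet
import Fermat.Agent.Lib.FF.GeomGood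
import Fermat.Agent.Lib.FF.GeomCl
import Fermat.Agent.Lib.FF.GeomInt

set_option autoImplicit false
set_option linter.style.haveILetI false

noncomputable section

open AlgebraicCurve GaloisRep Fermat.Agent.RR Fermat.Agent.RRMult Fermat.Agent.Deuring
  Fermat.Agent.FFGoodEll Fermat.Agent.FF Fermat.Agent.FFGal Fermat.Agent.FFGeom
  Fermat.Agent.KMRing Fermat.Agent.KMBridge Fermat.Agent.FFGeomGood

namespace Fermat.Agent.FFKum

section General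

variable {K F : Type*} [Field K] [Field F] [Algebra K F]

/-- representatives of `x`, `y`, `z`, `o` relative to `E` with `x + y = z + o`:
`D₃ ∼ D₁ + D₂ - D₀`. -/
theorem exists_divOf_of_isRepOf_quad (h : IsRRField K F) {x y z o : Pic0 K F}
    {E D₁ D₂ D₃ D₀ : Divisor K F} (h₁ : IsRepOf x E D₁) (h₂ : IsRepOf y E D₂)
    (h₃ : IsRepOf z E D₃) (h₀ : IsRepOf o E D₀) (hxy : x + y = z + o) :
    ∃ f : F, f ≠ 0 ∧ D₃ = D₁ + D₂ - D₀ + divOf h f := by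
  obtain ⟨-, a₁, hx⟩ := h₁
  obtain ⟨-, a₂, hy⟩ := h₂
  obtain ⟨-, a₃, hz⟩ := h₃
  obtain ⟨-, a₀, ho⟩ := h₀
  have hprin : (((⟨D₃ - E, a₃⟩ : Divisor.degZero (K := K) (F := F)) + ⟨D₀ - E, a₀⟩) -
      (⟨D₁ - E, a₁⟩ + ⟨D₂ - E, a₂⟩) : Divisor.degZero (K := K) (F := F)) ∈
      (Divisor.principal (K := K) (F := F)).addSubgroupOf (Divisor.degZero (K := K) (F := F)) := by
    have : Pic0.mk (((⟨D₃ - E, a₃⟩ : Divisor.degZero (K := K) (F := F)) + ⟨D₀ - E, a₀⟩) -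
        (⟨D₁ - E, a₁⟩ + ⟨D₂ - E, a₂⟩)) = 0 := by
      have e : Pic0.mk (((⟨D₃ - E, a₃⟩ : Divisor.degZero (K := K) (F := F)) + ⟨D₀ - E, a₀⟩) -
          (⟨D₁ - E, a₁⟩ + ⟨D₂ - E, a₂⟩))
          = (Pic0.mk ⟨D₃ - E, a₃⟩ + Pic0.mk ⟨D₀ - E, a₀⟩) -
            (Pic0.mk ⟨D₁ - E, a₁⟩ + Pic0.mk ⟨D₂ - E, a₂⟩) := rfl
      rw [e, hx, hy, hz, ho, hxy, sub_self]
    exact (QuotientAddGroup.eq_zero_iff _).mp this
  rw [AddSubgroup.mem_addSubgroupOf] at hprin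
  obtain ⟨f, hf, hfD⟩ := hprin
  refine ⟨f, hf, ?_⟩
  ext w
  have h1 := hfD w
  have h2 : (((((⟨D₃ - E, a₃⟩ : Divisor.degZero (K := K) (F := F)) + ⟨D₀ - E, a₀⟩) -
      (⟨D₁ - E, a₁⟩ + ⟨D₂ - E, a₂⟩) : Divisor.degZero (K := K) (F := F)) : Divisor K F)) w
      = (D₃ w - E w + (D₀ w - E w)) - (D₁ w - E w + (D₂ w - E w)) := by
    show (((D₃ - E) + (D₀ - E)) - ((D₁ - E) + (D₂ - E))) w = _
    simp
  rw [h2] at h1
  simp only [Finsupp.add_apply, Finsupp.sub_apply, divOf_apply]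
  omega

end General

namespace EchSet

variable {G K F X T : Type} [Group G] [Field K] [Field F] [Algebra K F]

/-- **multiplication tables** for the bases of an `EchSet`. -/
structure MulTable (d : EchSet G K F X T) (n₄ : ℕ) where
  /-- basis of (a space containing) `L(2T) · L(2T)` -/
  b₄ : Fin n₄ → F
  hb₄ : LinearIndependent K b₄
  /-- structure constants `L(T) × L(T) → L(2T)` -/
  m₁ : Fin d.n₁ → Fin d.n₁ → Fin d.n₂ → K
  /-- structure constants `L(2T) × L(2T) → span b₄` -/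
  m₂ : Fin d.n₂ → Fin d.n₂ → Fin n₄ → K
  hm₁ : ∀ i j, d.b₁ i * d.b₁ j = ∑ k, m₁ i j k • d.b₂ k
  hm₂ : ∀ i j, d.b₂ i * d.b₂ j = ∑ k, m₂ i j k • b₄ k

variable {d : EchSet G K F X T} {n₄ : ℕ} (μ : d.MulTable n₄)

/-- the Khuri-Makdisi data at the pair of points `(x, y)` with origin `o`, for the tuple `τ`. -/
def kmData (τ : T) (x y o : X) : KMData K d.n₁ d.n₂ n₄ d.r d.r d.r d.e₂ where
  m₁ := μ.m₁
  m₂ := μ.m₂
  Γx := d.Γ τ x
  Γy := d.Γ τ y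
  E₁ := d.Γ τ o
  E₂ := d.Xo τ o

/-- the dictionary in characteristic `0` for ANY data `d₀` with the right entries. -/
def kmCoordOf (d : EchSet G K F X T) {n₄ : ℕ} (b₄ : Fin n₄ → F)
    (li₄ : LinearIndependent K b₄)
    (d₀ : KMData K d.n₁ d.n₂ n₄ d.r d.r d.r d.e₂)
    (hm₁ : ∀ i j, d.b₁ i * d.b₁ j = ∑ l, d₀.m₁ i j l • d.b₂ l)
    (hm₂ : ∀ i j, d.b₂ i * d.b₂ j = ∑ l, d₀.m₂ i j l • b₄ l)
    (τ : T) (x y o : X) (hΓx : d₀.Γx = d.Γ τ x) (hΓy : d₀.Γy = d.Γ τ y)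
    (hE₁ : d₀.E₁ = d.Γ τ o) (hE₂ : d₀.E₂ = d.Xo τ o) :
    KMCoord (Finsupp.single d.P d.T₀) (d.D τ x) (d.D τ y) (d.D τ o) d₀ where
  b₁ := d.b₁
  b₂ := d.b₂
  b₄ := b₄
  li₁ := d.hb₁
  li₂ := d.hb₂
  li₄ := li₄
  span₁ := d.span₁
  span₂ := by rw [d.span₂, two_nsmul_single_place]
  hm₁ := hm₁
  hm₂ := hm₂
  hΓx := by rw [span_coord_eq_colSpan, hΓx]; exact d.colSpan_Γ τ x
  hΓy := by rw [span_coord_eq_colSpan, hΓy]; exact d.colSpan_Γ τ y
  hE₁ := by rw [span_coord_eq_colSpan, hE₁]; exact d.colSpan_Γ τ o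
  hE₂ := by rw [span_coord_eq_colSpan, hE₂, d.colSpan_Xo, two_nsmul_single_place]

/-- **the characteristic-0 dictionary** between `kmData μ τ x y o` and the function field. -/
def kmCoord (τ : T) (x y o : X) :
    KMCoord (Finsupp.single d.P d.T₀) (d.D τ x) (d.D τ y) (d.D τ o) (kmData μ τ x y o) :=
  kmCoordOf d μ.b₄ μ.hb₄ (kmData μ τ x y o) μ.hm₁ μ.hm₂ τ x y o rfl rfl rfl rfl

@[simp] theorem kmCoord_b₁ (τ : T) (x y o : X) : (kmCoord μ τ x y o).b₁ = d.b₁ := rfl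
@[simp] theorem kmCoord_b₂ (τ : T) (x y o : X) : (kmCoord μ τ x y o).b₂ = d.b₂ := rfl
@[simp] theorem kmCoord_b₄ (τ : T) (x y o : X) : (kmCoord μ τ x y o).b₄ = μ.b₄ := rfl

variable (d)

theorem degree_T₀_sub_D (τ : T) (x : X) :
    Divisor.degree (Finsupp.single d.P d.T₀ - d.D τ x) = d.T₀ - (genusFF K F : ℤ) := by
  rw [map_sub, degree_single_one d.hF, d.degree_D]

/-- **the Riemann-Roch hypotheses** of the affine Khuri-Makdisi step at `(x, y)` with origin `o`: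
`D₃ = D τ z`, `cls x + cls y = cls z + cls o`. -/
theorem kmHyp (hT₀ : 4 * (genusFF K F : ℤ) ≤ d.T₀) (τ : T) {x y z o : X}
    (h : d.cls x + d.cls y = d.cls z + d.cls o) :
    KMCoord.KMHyp d.hF (Finsupp.single d.P d.T₀) (d.D τ x) (d.D τ y) (d.D τ z) (d.D τ o) where
  hx := by
    rw [d.degree_T₀_sub_D]
    omega
  hy := by
    rw [d.degree_T₀_sub_D]
    omega
  hE := by
    rw [d.degree_T₀_sub_D]
    have hg : (0 : ℤ) ≤ (genusFF K F : ℤ) := Int.natCast_nonneg _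
    omega
  hell := d.ell_D τ z
  hD₃ := d.D_nonneg τ z
  equiv := exists_divOf_of_isRepOf_quad d.hF (d.isRepOf_D τ x) (d.isRepOf_D τ y)
    (d.isRepOf_D τ z) (d.isRepOf_D τ o) h

variable {d}

/-- **`good_gen`**: the pointwise Khuri-Makdisi rank statements on the generic fibre. -/
theorem kmGood_gen [Infinite K] (hT₀ : 4 * (genusFF K F : ℤ) ≤ d.T₀) {ρ : ℕ}
    (hρ : (ρ : ℤ) = 2 * d.T₀ + 1 - 3 * (genusFF K F : ℤ)) (τ : T) {x y z o : X}
    (h : d.cls x + d.cls y = d.cls z + d.cls o) :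
    KMGood (kmData μ τ x y o) ρ d.I₁ := by
  have hg : (0 : ℤ) ≤ (genusFF K F : ℤ) := Int.natCast_nonneg _
  refine KMCoord.kmGood_of_isGoodDiv (kmCoord μ τ x y o) d.hF (d.kmHyp hT₀ τ h)
    (d.isGoodDiv_D τ z) ?_ ?_ ?_ d.I₁ ?_
  · rw [d.degree_T₀_sub_D]
    omega
  · rw [hρ, map_sub, map_sub, two_nsmul_single_place, degree_single_one d.hF, d.degree_D,
      d.degree_D]
    ring
  · rw [d.degree_T₀_sub_D, d.hr]
    ring
  · intro j hj
    rw [← d.chart₁]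
    exact Submodule.subset_span ⟨j, hj, rfl⟩

/-- **`sum_gen`**: the result of the affine Khuri-Makdisi step is `L(T₀ P - D τ z)`, i.e. the
column space of `Γ τ z`. -/
theorem range_Γ [Infinite K] (hT₀ : 4 * (genusFF K F : ℤ) ≤ d.T₀) (τ : T) {x y z o : X}
    (h : d.cls x + d.cls y = d.cls z + d.cls o) :
    LinearMap.range (d.Γ τ z).mulVecLin = (kmData μ τ x y o).W₃ := by
  apply Submodule.map_injective_of_injective (kmCoord μ τ x y o).inj₁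
  rw [(kmCoord μ τ x y o).map_W₃ d.hF (d.kmHyp hT₀ τ h), KMCoord.map_range_mulVecLin,
    kmCoord_b₁, span_coord_eq_colSpan, d.colSpan_Γ]

/-! ### the special fibre -/

section Closed

variable {k Fk : Type*} [Field k] [Field Fk] [Algebra k Fk]

/-- the goodness hypothesis of `good_cl`, from goodness in the form of `GoodFibresSet.good`. -/
theorem isGoodDiv_red_D (e : EchSet G K F X T) (r : Place K F → Place k Fk) (Q : Place k Fk)
    (τ : T) (x : X)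
    (h : ∀ (Y : Divisor K F) (hY : Y ∈ Divisor.degZero (K := K) (F := F)),
      Pic0.mk ⟨Y, hY⟩ = e.cls x → IsGoodDiv Q (redDiv r (Y + e.E τ))) :
    IsGoodDiv Q (redDiv r (e.D τ x)) := by
  obtain ⟨-, h0, hx⟩ := e.isRepOf_D τ x
  have := h _ h0 hx
  rwa [sub_add_cancel] at this

/-- **`good_cl`, abstract form.** -/
theorem good_cl (e : EchSet G K F X T) (S : ValSetup K F k Fk) (hL : HasLattice S)
    [Infinite k] {r : Place K F → Place k Fk} (hr : IsReduction S r)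
    (hg : genusFF K F = genusFF k Fk)
    (int₁ : ∀ i, e.b₁ i ∈ S.Ov) (red₁ : LinearIndependent k fun i => S.red (e.b₁ i))
    (int₂ : ∀ i, e.b₂ i ∈ S.Ov) (red₂ : LinearIndependent k fun i => S.red (e.b₂ i))
    {n₄ : ℕ} (b₄ : Fin n₄ → F) (li₄ : LinearIndependent K b₄)
    (int₄ : ∀ i, b₄ i ∈ S.Ov) (red₄ : LinearIndependent k fun i => S.red (b₄ i))
    (hT₀ : 4 * (genusFF K F : ℤ) ≤ e.T₀)
    (hgood : ∀ τ x, IsGoodDiv (r e.P) (redDiv r (e.D τ x)))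
    {ρ : ℕ} (hρ : (ρ : ℤ) = 2 * e.T₀ + 1 - 3 * (genusFF K F : ℤ))
    (τ : T) {x y z o : X} (h : e.cls x + e.cls y = e.cls z + e.cls o)
    (d : KMData S.A e.n₁ e.n₂ n₄ e.r e.r e.r e.e₂)
    (hm₁ : ∀ i j, e.b₁ i * e.b₁ j = ∑ l, ((d.m₁ i j l : S.A) : K) • e.b₂ l)
    (hm₂ : ∀ i j, e.b₂ i * e.b₂ j = ∑ l, ((d.m₂ i j l : S.A) : K) • b₄ l)
    (hΓx : d.Γx.map S.A.subtype = e.Γ τ x) (hΓy : d.Γy.map S.A.subtype = e.Γ τ y)
    (hE₁ : d.E₁.map S.A.subtype = e.Γ τ o) (hE₂ : d.E₂.map S.A.subtype = e.Xo τ o) :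
    KMGood (d.map S.res) ρ e.I₁ := by
  have hg0 : (0 : ℤ) ≤ (genusFF K F : ℤ) := Int.natCast_nonneg _
  have hdT : Divisor.degree (Finsupp.single e.P e.T₀) = e.T₀ := degree_single_one e.hF e.P e.T₀
  refine kmGood_residue hL hr hg (P := e.P) (M₀ := e.T₀) (by omega) d
    (kmCoordOf e b₄ li₄ (d.map S.A.subtype) hm₁ hm₂ τ x y o hΓx hΓy hE₁ hE₂)
    int₁ red₁ int₂ red₂ int₄ red₄ (e.kmHyp hT₀ τ h) (e.degree_D τ z)
    ?_ ?_ ?_ ?_ (hgood τ z) ?_ ?_ e.I₁ ?_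
  · exact linearIndependent_colVec_res_of_echelon S red₁ d.Γx e.I₁ (by rw [hΓx]; exact e.Γ_ech τ x)
  · exact linearIndependent_colVec_res_of_echelon S red₁ d.Γy e.I₁ (by rw [hΓy]; exact e.Γ_ech τ y)
  · exact linearIndependent_colVec_res_of_echelon S red₁ d.E₁ e.I₁ (by rw [hE₁]; exact e.Γ_ech τ o)
  · exact linearIndependent_colVec_res_of_echelon S red₂ d.E₂ e.I₂ (by rw [hE₂]; exact e.Xo_ech τ o)
  · rw [hρ, map_sub, map_sub, map_nsmul, hdT, e.degree_D, e.degree_D]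
    simp only [nsmul_eq_mul, Nat.cast_ofNat]
    ring
  · rw [map_sub, hdT, e.degree_D]
    have := e.hr
    omega
  · intro j hj
    have h1 : e.b₁ j ∈ chartSpan K e.b₁ e.I₁ := Submodule.subset_span ⟨j, hj, rfl⟩
    rw [e.chart₁] at h1
    exact h1

end Closed

end EchSet

/-! ### `K = ℚ̄`, a geometric setup -/

section GeomSetup

local notation "Kb" => AlgebraicClosure ℚ
local notation "GK" => (AlgebraicClosure ℚ ≃ₐ[ℚ] AlgebraicClosure ℚ)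

variable {p : ℕ} {F' Fk' : Type} [Field F'] [Algebra Kb F'] {A₀ : ValuationSubring Kb}
  [Field Fk'] [Algebra (IsLocalRing.ResidueField A₀) Fk'] {G' X' T' : Type} [Group G']

/-- **`good_cl`** for a geometric setup: for every model `d` over `A₀` of the affine
Khuri-Makdisi data at `(τ, x, y)` with origin `o`, the reduction of `d` modulo the maximal ideal
of `A₀` satisfies `KMGood`. -/
theorem EchSet.good_cl_geomSetup (𝒮 : GeomSetup p F' Fk' A₀) (e : EchSet G' Kb F' X' T')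
    (int₁ : ∀ i, e.b₁ i ∈ 𝒮.S.Ov)
    (red₁ : LinearIndependent (IsLocalRing.ResidueField A₀) fun i => 𝒮.S.red (e.b₁ i))
    (int₂ : ∀ i, e.b₂ i ∈ 𝒮.S.Ov)
    (red₂ : LinearIndependent (IsLocalRing.ResidueField A₀) fun i => 𝒮.S.red (e.b₂ i))
    {n₄ : ℕ} (μ : e.MulTable n₄)
    (int₄ : ∀ i, μ.b₄ i ∈ 𝒮.S.Ov)
    (red₄ : LinearIndependent (IsLocalRing.ResidueField A₀) fun i => 𝒮.S.red (μ.b₄ i))
    (hT₀ : 4 * (genusFF Kb F' : ℤ) ≤ e.T₀)
    (hgood : ∀ τ x, IsGoodDiv (𝒮.r e.P) (redDiv 𝒮.r (e.D τ x)))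
    {ρ : ℕ} (hρ : (ρ : ℤ) = 2 * e.T₀ + 1 - 3 * (genusFF Kb F' : ℤ))
    (τ : T') {x y z o : X'} (h : e.cls x + e.cls y = e.cls z + e.cls o)
    (d : KMData A₀ e.n₁ e.n₂ n₄ e.r e.r e.r e.e₂)
    (hd : d.map A₀.subtype = EchSet.kmData μ τ x y o) :
    KMGood (d.map (IsLocalRing.residue A₀)) ρ e.I₁ := by
  haveI := 𝒮.inf_k
  have hd' : (d.map (clIncl 𝒮)).map 𝒮.S.A.subtype = EchSet.kmData μ τ x y o := by
    rw [KMData.map_map, subtype_comp_clIncl, hd]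
  have h1 := e.good_cl 𝒮.S 𝒮.hL 𝒮.hr 𝒮.hg int₁ red₁ int₂ red₂ μ.b₄ μ.hb₄ int₄ red₄ hT₀ hgood hρ
    τ h (d.map (clIncl 𝒮))
    (fun i j => by
      have h2 := congrFun (congrFun (congrArg KMData.m₁ hd') i) j
      have h3 : ∀ l, (((d.map (clIncl 𝒮)).m₁ i j l : 𝒮.S.A) : Kb) = μ.m₁ i j l :=
        fun l => congrFun h2 l
      simp only [h3]
      exact μ.hm₁ i j)
    (fun i j => by
      have h2 := congrFun (congrFun (congrArg KMData.m₂ hd') i) j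
      have h3 : ∀ l, (((d.map (clIncl 𝒮)).m₂ i j l : 𝒮.S.A) : Kb) = μ.m₂ i j l :=
        fun l => congrFun h2 l
      simp only [h3]
      exact μ.hm₂ i j)
    (congrArg KMData.Γx hd') (congrArg KMData.Γy hd') (congrArg KMData.E₁ hd')
    (congrArg KMData.E₂ hd')
  rw [KMData.map_map, res_comp_clIncl] at h1
  exact h1

variable {X T : Type}

/-- **`Γ_int`**: the entries of `Γ τ x` are integral over `ℤ_(p)`. -/
theorem EchSet.Γ_int (hp : p.Prime) (𝒮 : GeomSetup p F' Fk' A₀) (e : EchSet GK Kb F' X T)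
    (hgal : ∀ (σ : GK) (c : Kb), SemilinearAut.baseAut (e.gal σ) c = σ c)
    (int₁ : ∀ i, e.b₁ i ∈ 𝒮.S.Ov)
    (red₁ : LinearIndependent (IsLocalRing.ResidueField A₀) fun i => 𝒮.S.red (e.b₁ i))
    (hT₀ : 3 * (genusFF Kb F' : ℤ) ≤ e.T₀)
    (hgood : ∀ τ x, IsGoodDiv (𝒮.r e.P) (redDiv 𝒮.r (e.D τ x)))
    (τ : T) (x : X) (i : Fin e.n₁) (a : Fin e.r) :
    IsIntegral (ratLocalizedAt p) (e.Γ τ x i a) :=
  EchData.Γ_int hp 𝒮 e.toEch hgal int₁ red₁ hT₀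
    (fun τx u => by rw [e.toEch_D]; exact hgood τx.1 τx.2) (τ, x) 0 i a

/-- **`Xo_int`**: the entries of `Xo τ x` are integral over `ℤ_(p)`. -/
theorem EchSet.Xo_int (hp : p.Prime) (𝒮 : GeomSetup p F' Fk' A₀) (e : EchSet GK Kb F' X T)
    (hgal : ∀ (σ : GK) (c : Kb), SemilinearAut.baseAut (e.gal σ) c = σ c)
    (int₂ : ∀ i, e.b₂ i ∈ 𝒮.S.Ov)
    (red₂ : LinearIndependent (IsLocalRing.ResidueField A₀) fun i => 𝒮.S.red (e.b₂ i))
    (hT₀ : 3 * (genusFF Kb F' : ℤ) ≤ 2 * e.T₀)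
    (hgood : ∀ τ x, IsGoodDiv (𝒮.r e.P) (redDiv 𝒮.r (e.D τ x)))
    (τ : T) (x : X) (i : Fin e.n₂) (a : Fin e.e₂) :
    IsIntegral (ratLocalizedAt p) (e.Xo τ x i a) :=
  EchData.X_int hp 𝒮 e.toEch hgal int₂ red₂ hT₀
    (fun τx u => by rw [e.toEch_D]; exact hgood τx.1 τx.2) (τ, x) i a

end GeomSetup

end Fermat.Agent.FFKum
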